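import Fermat.Agent.CarayolSquare.Plumbing.Main
import Fermat.Agent.CarayolSquare.Provider.Main

/-!
# `CoreInput` from the local theorem alone

`coreInput_of_root` feeds the models of `Provider.Main` into `coreInput_of`.
-/

set_option autoImplicit false

namespace FLTAgent.CarayolSquare.Plumbing

theorem coreInput_of_root
    (hroot : ∀ {q : ℕ} (X : Ctx q) (M₁ : ℕ) [NeZero M₁] (G : Model X M₁), G.RootDescends) :
    CoreInput :=
  coreInput_of (fun X M' hM h => Provider.exists_model X M' hM h) hroot

end FLTAgent.CarayolSquare.Plumbing
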