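import Fermat.Agent.MordellWeil.Inertia
import Fermat.Agent.ExtVanishing.Places
import Mathlib.RingTheory.RootsOfUnity.PrimitiveRoots
import Mathlib.FieldTheory.Finite.Basic
import Mathlib.FieldTheory.IsAlgClosed.AlgebraicClosure
import Mathlib.RingTheory.RootsOfUnity.AlgebraicallyClosed
import Mathlib.RingTheory.Polynomial.Content
import Mathlib.NumberTheory.NumberField.Basic
import Mathlib.RingTheory.Polynomial.Cyclotomic.Basic

/-!
# The field fixed by inertia at `q`

Its elements of value `< 1` have value at most that of `q` (`valuation_le_q`), it contains the roots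
of unity of order prime to `q`, and it has the same residue field as `ℚ̄`
(`exists_mem_inertiaFixed_sub_lt`).
-/

set_option autoImplicit false

noncomputable section

open scoped NumberField
open WithZero IsDedekindDomain

namespace FLTAgent.CarayolSquare.Plumbing

open FLTAgent.Density FLTAgent.ExtVanishing

variable {A : ValuationSubring Qbar} {q : ℕ}

/-- The field fixed by inertia. -/
def inertiaFixed (A : ValuationSubring Qbar) : IntermediateField ℚ Qbar :=
  IntermediateField.fixedField (A.inertiaSubgroupIn ℚ)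

theorem mem_inertiaFixed {x : Qbar} :
    x ∈ inertiaFixed A ↔ ∀ σ ∈ A.inertiaSubgroupIn ℚ, σ x = x :=
  IntermediateField.mem_fixedField_iff _ _

theorem valuation_q_lt_one (hA : A.LiesOverPrime q) : A.valuation (q : Qbar) < 1 :=
  A.mem_nonunits_iff.mp hA

theorem valuation_int_eq_one (hq : q.Prime) (hA : A.LiesOverPrime q) {z : ℤ}
    (hz : ¬ (q : ℤ) ∣ z) : A.valuation (z : Qbar) = 1 :=
  le_antisymm ((A.valuation_le_one_iff _).mpr (intCast_mem A.toSubring z))
    (not_lt.mp fun h => intCast_notMem_nonunits hq hA hz (A.mem_nonunits_iff.mpr h))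

/-- An element fixed by inertia of value below one has value at most that of `q`. -/
theorem valuation_le_q (hq : q.Prime) (hA : A.LiesOverPrime q) {x : Qbar}
    (hx : x ∈ inertiaFixed A) (hv : A.valuation x < 1) :
    A.valuation x ≤ A.valuation (q : Qbar) := by
  classical
  rcases eq_or_ne x 0 with rfl | hx0
  · simp
  let F : IntermediateField ℚ Qbar := IntermediateField.adjoin ℚ {x}
  have : FiniteDimensional ℚ F :=
    IntermediateField.adjoin.finiteDimensional (Algebra.IsIntegral.isIntegral x)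
  let L := IntermediateField.normalClosure ℚ F Qbar
  have : FiniteDimensional ℚ L := normalClosure.is_finiteDimensional ℚ F Qbar
  have : IsGalois ℚ L := IsGalois.normalClosure ℚ F Qbar
  have : NumberField L := { }
  have hxL : x ∈ L := IntermediateField.le_normalClosure F
    (IntermediateField.subset_adjoin ℚ _ rfl)
  let P : Ideal (𝓞 L) := (primeBelow A).comap (intEmb L)
  have hqP : (q : 𝓞 L) ∈ P := by
    show intEmb L (q : 𝓞 L) ∈ primeBelow A
    rw [map_natCast, mem_primeBelow]
    exact hA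
  have hP0 : P ≠ ⊥ := fun h => by
    rw [h, Ideal.mem_bot, Nat.cast_eq_zero] at hqP; exact hq.ne_zero hqP
  have : P.IsPrime := Ideal.comap_isPrime _ _
  let Q : HeightOneSpectrum (𝓞 L) := ⟨P, inferInstance, hP0⟩
  have hle : ∀ z : L, Q.valuation L z ≤ 1 → A.valuation (z : Qbar) ≤ 1 := by
    intro z hz
    obtain ⟨n, ⟨c, hc⟩, hnc⟩ := Q.exists_primeCompl_mul_eq_of_integer z hz
    have hc' : A.valuation ((c : L) : Qbar) = 1 :=
      le_antisymm ((A.valuation_le_one_iff _).2 (mem_of_isIntegral A (intEmb L c).2))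
        (not_lt.1 fun h => hc (mem_primeBelow.2 (A.mem_nonunits_iff.2 h)))
    have e : (z : Qbar) * ((c : L) : Qbar) = ((n : L) : Qbar) :=
      congrArg (fun u : L => (u : Qbar)) hnc
    have := (A.valuation_le_one_iff _).2 (mem_of_isIntegral A (intEmb L n).2)
    change A.valuation ((n : L) : Qbar) ≤ 1 at this
    rwa [← e, map_mul, hc', mul_one] at this
  set x' : L := ⟨x, hxL⟩ with hx'
  have hx'0 : x' ≠ 0 := fun h => hx0 (congrArg Subtype.val h)
  -- the field generated by `x` inside `L`
  let M : IntermediateField ℚ L := IntermediateField.adjoin ℚ {x'}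
  have hfix : ∀ g ∈ Q.asIdeal.inertia (L ≃ₐ[ℚ] L), ∀ m : M, g (m : L) = m := by
    intro g hg m
    obtain ⟨σ, hσ, hσL⟩ := exists_inertia_lift hq hA (P := P) rfl hg
    have hgx : g x' = x' := Subtype.ext ((hσL x').symm.trans (mem_inertiaFixed.mp hx σ hσ))
    have hle' : M ≤ IntermediateField.fixedField (Subgroup.zpowers g) := by
      rw [IntermediateField.adjoin_le_iff, Set.singleton_subset_iff, SetLike.mem_coe,
        IntermediateField.mem_fixedField_iff]
      intro f hf
      exact (Subgroup.zpowers_le (H := MulAction.stabilizer (L ≃ₐ[ℚ] L) x')).mpr hgx hf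
    exact (IntermediateField.mem_fixedField_iff _ _).mp (hle' m.2) g (Subgroup.mem_zpowers g)
  have hcard : Nat.card (Q.asIdeal.inertia (L ≃ₐ[M] L)) =
      Nat.card (Q.asIdeal.inertia (L ≃ₐ[ℚ] L)) := by
    refine Nat.card_congr (Equiv.ofBijective
      (fun g => ⟨g.1.restrictScalars ℚ, fun y => by
        have h : (g : L ≃ₐ[M] L) • y - y ∈ Q.asIdeal := g.2 y
        exact h⟩) ⟨?_, ?_⟩)
    · intro g g' h
      exact Subtype.ext (AlgEquiv.ext fun z =>
        DFunLike.congr_fun (congrArg Subtype.val h) z)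
    · rintro ⟨g, hg⟩
      refine ⟨⟨AlgEquiv.ofRingEquiv (f := g.toRingEquiv) (fun m => hfix g hg m), fun y => ?_⟩, ?_⟩
      · have h : g • y - y ∈ Q.asIdeal := hg y
        exact h
      · exact Subtype.ext (AlgEquiv.ext fun z => rfl)
  rw [MordellWeil.card_inertia_eq_ramificationIdx,
    MordellWeil.card_inertia_eq_ramificationIdx] at hcard
  -- the values
  have hxlt : Q.valuation L x' < 1 := by
    by_contra h
    have h1 := hle x'⁻¹ (by rw [map_inv₀]; exact inv_le_one_of_one_le₀ (not_lt.mp h))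
    push_cast at h1
    rw [map_inv₀] at h1
    exact absurd ((one_le_inv₀ (zero_lt_iff.mpr (A.valuation.ne_zero_iff.mpr hx0))).mpr hv.le)
      (fun _ => absurd (inv_le_one₀ (zero_lt_iff.mpr (A.valuation.ne_zero_iff.mpr hx0)) |>.mp h1)
        (not_le.mpr hv))
  have e1 := MordellWeil.log_valuation_algebraMap (K := M) Q
    ⟨x', IntermediateField.mem_adjoin_simple_self ℚ x'⟩
  change log (Q.valuation L x') = _ at e1
  have e2 := MordellWeil.log_valuation_algebraMap (K := ℚ) Q (q : ℚ)
  rw [map_natCast] at e2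
  set d : ℕ := Q.asIdeal.ramificationIdx (𝓞 ℚ) with hd
  rw [hcard] at e1
  have hqval : log ((MordellWeil.primeUnder (K := ℚ) Q).valuation ℚ (q : ℚ)) = -1 := by
    have hmem : (q : 𝓞 ℚ) ∈ (MordellWeil.primeUnder (K := ℚ) Q).asIdeal := by
      show algebraMap (𝓞 ℚ) (𝓞 L) (q : 𝓞 ℚ) ∈ P
      rwa [map_natCast]
    have hprime : Prime (q : 𝓞 ℚ) := by
      have h := (MulEquiv.prime_iff Rat.ringOfIntegersEquiv.symm.toMulEquiv).mpr
        (Nat.prime_iff_prime_int.mp hq)
      simpa using h
    have hspan : (MordellWeil.primeUnder (K := ℚ) Q).asIdeal = Ideal.span {(q : 𝓞 ℚ)} := by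
      refine (((Ideal.span_singleton_prime hprime.ne_zero).mpr hprime).isMaximal
        (by simpa using hprime.ne_zero) |>.eq_of_le ?_ ?_).symm
      · exact (MordellWeil.primeUnder (K := ℚ) Q).isPrime.ne_top
      · rwa [Ideal.span_le, Set.singleton_subset_iff]
    have h1 := (MordellWeil.primeUnder (K := ℚ) Q).valuation_of_algebraMap (K := ℚ) (q : 𝓞 ℚ)
    push_cast at h1
    rw [h1, (MordellWeil.primeUnder (K := ℚ) Q).intValuation_singleton hprime.ne_zero hspan]
    exact log_exp _
  rw [hqval] at e2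
  have hlogx : log (Q.valuation L x') < 0 := by
    rw [← log_one]
    exact log_lt_log (by simpa using hx'0) one_ne_zero |>.mpr hxlt
  have hd0 : (0 : ℤ) < d := by
    rw [hd, ← MordellWeil.card_inertia_eq_ramificationIdx (K := ℚ) Q]
    exact_mod_cast Nat.card_pos
  have hcmp : log (Q.valuation L x') ≤ log (Q.valuation L (q : L)) := by
    rw [e2, e1] at *
    have : log ((MordellWeil.primeUnder (K := M) Q).valuation M
        ⟨x', IntermediateField.mem_adjoin_simple_self ℚ x'⟩) < 0 := by
      by_contra h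
      have := mul_nonneg hd0.le (not_lt.mp h)
      omega
    nlinarith
  have hq0 : (q : L) ≠ 0 := Nat.cast_ne_zero.mpr hq.ne_zero
  have hquot : Q.valuation L (x' / (q : L)) ≤ 1 := by
    rw [map_div₀, div_le_one₀ (zero_lt_iff.mpr (by simpa using hq0))]
    exact (log_le_log (by simpa using hx'0) (by simpa using hq0)).mp hcmp
  have := hle _ hquot
  push_cast at this
  rwa [map_div₀, div_le_one₀ (zero_lt_iff.mpr
    (A.valuation.ne_zero_iff.mpr (Nat.cast_ne_zero.mpr hq.ne_zero)))] at this

theorem valuation_eq_one_of_pow_eq_one {n : ℕ} (hn : n ≠ 0) {ζ : Qbar} (h : ζ ^ n = 1) :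
    A.valuation ζ = 1 :=
  (pow_eq_one_iff_left hn).mp (by rw [← map_pow, h, map_one])

/-- A root of unity of order prime to `q` congruent to one is one. -/
theorem eq_one_of_valuation_sub_one_lt (hq : q.Prime) (hA : A.LiesOverPrime q) {n : ℕ}
    (hqn : ¬ q ∣ n) {μ : Qbar} (hμ : μ ^ n = 1) (h : A.valuation (μ - 1) < 1) : μ = 1 := by
  have hn : n ≠ 0 := fun h0 => hqn (h0 ▸ dvd_zero q)
  have hμA : μ ∈ A := (A.valuation_le_one_iff _).mp (valuation_eq_one_of_pow_eq_one hn hμ).le
  have hsum : A.valuation ((∑ i ∈ Finset.range n, μ ^ i) - (n : Qbar)) < 1 := by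
    rw [show (n : Qbar) = ∑ _i ∈ Finset.range n, (1 : Qbar) by simp, ← Finset.sum_sub_distrib]
    refine A.valuation.map_sum_lt one_ne_zero fun i _ => ?_
    rw [← geom_sum_mul μ i, map_mul]
    exact lt_of_le_of_lt (mul_le_of_le_one_left' ((A.valuation_le_one_iff _).mpr
      (sum_mem fun j _ => pow_mem hμA j))) h
  have hne : (∑ i ∈ Finset.range n, μ ^ i) ≠ 0 := fun h0 => by
    rw [h0, zero_sub, Valuation.map_neg] at hsum
    have := valuation_int_eq_one hq hA (z := (n : ℤ)) (by exact_mod_cast hqn)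
    rw [Int.cast_natCast] at this
    exact hsum.ne this
  have h0 := geom_sum_mul μ n
  rw [hμ, sub_self] at h0
  exact sub_eq_zero.mp ((mul_eq_zero.mp h0).resolve_left hne)

/-- Roots of unity of order prime to `q` are fixed by inertia. -/
theorem mem_inertiaFixed_of_pow_eq_one (hq : q.Prime) (hA : A.LiesOverPrime q) {n : ℕ}
    (hqn : ¬ q ∣ n) {ζ : Qbar} (hζ : ζ ^ n = 1) : ζ ∈ inertiaFixed A := by
  have hn : n ≠ 0 := fun h0 => hqn (h0 ▸ dvd_zero q)
  have hv : A.valuation ζ = 1 := valuation_eq_one_of_pow_eq_one hn hζ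
  have hζ0 : ζ ≠ 0 := fun h => by simp [h, zero_pow hn] at hζ
  refine mem_inertiaFixed.mpr fun σ hσ => ?_
  obtain ⟨-, hσ'⟩ := mem_inertiaSubgroupIn_iff.mp hσ
  have h := hσ' ζ ((A.valuation_le_one_iff _).mp hv.le)
  rw [A.mem_nonunits_iff] at h
  have hμ := eq_one_of_valuation_sub_one_lt hq hA hqn (μ := σ ζ / ζ)
    (by rw [div_pow, ← map_pow, hζ, map_one, div_one]) (by
      rw [div_sub_one hζ0, map_div₀, hv, div_one]
      exact h)
  exact (div_eq_one_iff_eq hζ0).mp hμ

/-- A nonzero residue is a root of unity of order prime to `q`. -/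
theorem exists_pow_sub_one_lt (hq : q.Prime) (hA : A.LiesOverPrime q) {a : Qbar}
    (ha : A.valuation a = 1) : ∃ n : ℕ, ¬ q ∣ n ∧ A.valuation (a ^ n - 1) < 1 := by
  have : Fact q.Prime := ⟨hq⟩
  let k := IsLocalRing.ResidueField A
  have : CharP k q := (CharP.charP_iff_prime_eq_zero hq).mpr (by
    rw [← map_natCast (IsLocalRing.residue A), IsLocalRing.residue_eq_zero_iff,
      A.valuation_lt_one_iff]
    simpa using valuation_q_lt_one hA)
  let : Algebra (ZMod q) k := ZMod.algebra _ q
  let a' : A := ⟨a, (A.valuation_le_one_iff _).mp ha.le⟩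
  set r : k := IsLocalRing.residue A a'
  have hr : r ≠ 0 := fun h => by
    rw [IsLocalRing.residue_eq_zero_iff, A.valuation_lt_one_iff] at h
    exact h.ne ha
  have halg : IsAlgebraic ℤ a :=
    (IsFractionRing.isAlgebraic_iff ℤ ℚ Qbar).mpr (Algebra.IsAlgebraic.isAlgebraic a)
  obtain ⟨p, hp0, hp⟩ := halg
  have hp' : Polynomial.aeval a p.primPart = 0 := Polynomial.aeval_primPart_eq_zero hp0 hp
  have hmap : p.primPart.map (Int.castRingHom (ZMod q)) ≠ 0 := fun h => by
    have hdvd : Polynomial.C (q : ℤ) ∣ p.primPart := by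
      rw [Polynomial.C_dvd_iff_dvd_coeff]
      intro i
      have := congrArg (fun P => Polynomial.coeff P i) h
      simpa [ZMod.intCast_zmod_eq_zero_iff_dvd] using this
    exact (Nat.prime_iff_prime_int.mp hq).not_isUnit (p.isPrimitive_primPart _ hdvd)
  have hint : IsIntegral (ZMod q) r := by
    refine IsAlgebraic.isIntegral ⟨_, hmap, ?_⟩
    rw [Polynomial.aeval_def, Polynomial.eval₂_map]
    have h0 : Polynomial.aeval a' p.primPart = 0 := by
      apply A.subtype_injective
      rw [map_zero, ← hp', Polynomial.aeval_def, Polynomial.aeval_def, Polynomial.hom_eval₂]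
      congr 1
    have := congrArg (IsLocalRing.residue A) h0
    rw [map_zero, Polynomial.aeval_def, Polynomial.hom_eval₂] at this
    rw [RingHom.ext_int ((algebraMap (ZMod q) k).comp (Int.castRingHom (ZMod q)))
      ((IsLocalRing.residue A).comp (algebraMap ℤ A))]
    exact this
  let F := IntermediateField.adjoin (ZMod q) {r}
  have : FiniteDimensional (ZMod q) F := IntermediateField.adjoin.finiteDimensional hint
  have : Finite F := Module.finite_of_finite (ZMod q)
  have := Fintype.ofFinite F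
  have hr' : (⟨r, IntermediateField.mem_adjoin_simple_self _ r⟩ : F) ≠ 0 :=
    fun h => hr (congrArg Subtype.val h)
  refine ⟨Fintype.card F - 1, ?_, ?_⟩
  · intro h
    have hc : q ∣ Fintype.card F := by
      rw [Module.card_eq_pow_finrank (K := ZMod q), ZMod.card]
      exact dvd_pow_self q Module.finrank_pos.ne'
    have hpos := Fintype.card_pos (α := F)
    have := Nat.dvd_sub hc h
    rw [Nat.sub_sub_self hpos] at this
    exact hq.one_lt.ne' (Nat.dvd_one.mp this)
  · have h := congrArg Subtype.val (FiniteField.pow_card_sub_one_eq_one _ hr')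
    have h' : IsLocalRing.residue A (a' ^ (Fintype.card F - 1) - 1) = 0 := by
      rw [map_sub, map_pow, map_one, sub_eq_zero]
      simpa using h
    rw [IsLocalRing.residue_eq_zero_iff, A.valuation_lt_one_iff] at h'
    exact h'

/-- Every residue comes from the field fixed by inertia. -/
theorem exists_mem_inertiaFixed_sub_lt (hq : q.Prime) (hA : A.LiesOverPrime q) {a : Qbar}
    (ha : a ∈ A) : ∃ c ∈ inertiaFixed A, c ∈ A ∧ A.valuation (a - c) < 1 := by
  by_cases hv : A.valuation a < 1
  · exact ⟨0, zero_mem _, A.zero_mem, by rwa [sub_zero]⟩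
  have hv1 : A.valuation a = 1 :=
    le_antisymm ((A.valuation_le_one_iff _).mpr ha) (not_lt.mp hv)
  obtain ⟨n, hqn, hn⟩ := exists_pow_sub_one_lt hq hA hv1
  have hn0 : 0 < n := Nat.pos_of_ne_zero fun h0 => hqn (h0 ▸ dvd_zero q)
  have : NeZero (n : Qbar) := ⟨Nat.cast_ne_zero.mpr hn0.ne'⟩
  obtain ⟨ζ, hζ⟩ := HasEnoughRootsOfUnity.exists_primitiveRoot Qbar n
  have hprod : a ^ n - 1 = ∏ μ ∈ Polynomial.nthRootsFinset n (1 : Qbar), (a - μ) := by
    have h := congrArg (Polynomial.eval a) (Polynomial.X_pow_sub_one_eq_prod hn0 hζ)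
    simpa [Polynomial.eval_prod] using h
  have hroot : ∀ μ ∈ Polynomial.nthRootsFinset n (1 : Qbar), μ ^ n = 1 := fun μ hμ =>
    (Polynomial.mem_nthRootsFinset hn0 (1 : Qbar)).mp hμ
  have hmemA : ∀ μ ∈ Polynomial.nthRootsFinset n (1 : Qbar), μ ∈ A := fun μ hμ =>
    (A.valuation_le_one_iff _).mp (valuation_eq_one_of_pow_eq_one hn0.ne' (hroot μ hμ)).le
  by_contra hne
  push Not at hne
  have : A.valuation (a ^ n - 1) = 1 := by
    rw [hprod, map_prod]
    refine Finset.prod_eq_one fun μ hμ => le_antisymm ?_ ?_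
    · exact (A.valuation_le_one_iff _).mpr (A.toSubring.sub_mem ha (hmemA μ hμ))
    · exact hne μ (mem_inertiaFixed_of_pow_eq_one hq hA hqn (hroot μ hμ)) (hmemA μ hμ)
  exact hn.ne this

end FLTAgent.CarayolSquare.Plumbing
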