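import Fermat.Agent.CarayolSquare.Geometry.Spec
import Fermat.Agent.CarayolSquare.Plumbing.InertiaField
import Mathlib.RingTheory.DiscreteValuationRing.Basic

/-!
# The context at a place over `q`

`exists_ctx`: the field fixed by inertia at a place over `q` gives a context `Ctx q`, with discrete
valuation ring of integers and residue field that of `ℚ̄`.
-/

set_option autoImplicit false

noncomputable section

namespace FLTAgent.CarayolSquare.Plumbing

open FLTAgent.Density FLTAgent.CarayolSquare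

variable {A : ValuationSubring Qbar} {q : ℕ}

local notation "KI" => inertiaFixed

theorem q_dvd_of_lt (hq : q.Prime) (hA : A.LiesOverPrime q) {c : intK A (KI A)}
    (hc : A.valuation ((c : KI A) : Qbar) < 1) : (q : intK A (KI A)) ∣ c := by
  have hq0 : (q : Qbar) ≠ 0 := Nat.cast_ne_zero.mpr hq.ne_zero
  have hle := valuation_le_q hq hA (c : KI A).2 hc
  have hmem : ((c : KI A) : Qbar) / q ∈ A := by
    rw [← A.valuation_le_one_iff, map_div₀, div_le_one₀ (zero_lt_iff.mpr (by simpa using hq0))]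
    exact hle
  let d : KI A := (c : KI A) / (q : KI A)
  have hd : (d : Qbar) ∈ A := by
    simpa [d] using hmem
  refine ⟨⟨d, hd⟩, Subtype.ext ?_⟩
  show (c : KI A) = ((q : intK A (KI A)) : KI A) * ((c : KI A) / (q : KI A))
  rw [show ((q : intK A (KI A)) : KI A) = (q : KI A) from map_natCast (intK A (KI A)).subtype q,
    mul_div_cancel₀ _ (Nat.cast_ne_zero.mpr hq.ne_zero)]

theorem lt_one_iff_dvd (hq : q.Prime) (hA : A.LiesOverPrime q) (c : intK A (KI A)) :
    A.valuation ((c : KI A) : Qbar) < 1 ↔ (q : intK A (KI A)) ∣ c := by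
  refine ⟨q_dvd_of_lt hq hA, ?_⟩
  rintro ⟨d, rfl⟩
  push_cast
  rw [map_mul]
  exact lt_of_le_of_lt (mul_le_of_le_one_right' ((A.valuation_le_one_iff _).mpr d.2))
    (valuation_q_lt_one hA)

theorem isUnit_intK_iff (c : intK A (KI A)) :
    IsUnit c ↔ A.valuation ((c : KI A) : Qbar) = 1 := by
  constructor
  · rintro ⟨u, rfl⟩
    refine le_antisymm ((A.valuation_le_one_iff _).mpr (u : intK A (KI A)).2) ?_
    have h := congrArg (fun z : intK A (KI A) => A.valuation ((z : KI A) : Qbar)) u.mul_inv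
    simp only [Subring.coe_mul, IntermediateField.coe_mul, map_mul, Subring.coe_one,
      IntermediateField.coe_one, map_one] at h
    rw [← h]
    exact mul_le_of_le_one_right' ((A.valuation_le_one_iff _).mpr (u⁻¹ : (intK A (KI A))ˣ).val.2)
  · intro h
    have hc0 : (c : KI A) ≠ 0 := fun h0 => by simp [h0] at h
    have hinv : (((c : KI A)⁻¹ : KI A) : Qbar) ∈ A := by
      rw [← A.valuation_le_one_iff]
      push_cast
      rw [map_inv₀, h, inv_one]
    exact IsUnit.of_mul_eq_one (⟨(c : KI A)⁻¹, hinv⟩ : intK A (KI A))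
      (Subtype.ext (mul_inv_cancel₀ hc0))

theorem irreducible_q_intK (hq : q.Prime) (hA : A.LiesOverPrime q) :
    Irreducible (q : intK A (KI A)) := by
  have hv : ((((q : intK A (KI A)) : KI A)) : Qbar) = (q : Qbar) := by push_cast; rfl
  refine ⟨fun h => ?_, fun a b hab => ?_⟩
  · rw [isUnit_intK_iff, hv] at h
    exact (valuation_q_lt_one hA).ne h
  · by_contra hne
    push Not at hne
    have hlt : ∀ z : intK A (KI A), ¬ IsUnit z → A.valuation ((z : KI A) : Qbar) < 1 := fun z hz =>
      lt_of_le_of_ne ((A.valuation_le_one_iff _).mpr z.2) fun h => hz ((isUnit_intK_iff z).mpr h)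
    have ha := valuation_le_q hq hA (a : KI A).2 (hlt a hne.1)
    have hb := valuation_le_q hq hA (b : KI A).2 (hlt b hne.2)
    have h := congrArg (fun z : intK A (KI A) => A.valuation ((z : KI A) : Qbar)) hab
    simp only [hv] at h
    push_cast at h
    rw [map_mul] at h
    have hpos : 0 < A.valuation (q : Qbar) :=
      zero_lt_iff.mpr (by simpa using hq.ne_zero)
    have : A.valuation (q : Qbar) * 1 ≤ A.valuation (q : Qbar) * A.valuation (q : Qbar) := by
      rw [mul_one]
      exact h.le.trans (mul_le_mul' ha hb)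
    exact (not_le.mpr (valuation_q_lt_one hA)) ((mul_le_mul_iff_right₀ hpos).mp this)

theorem exists_pow_le_valuation (hq : q.Prime) (hA : A.LiesOverPrime q) {x : Qbar} (hx : x ∈ A)
    (hx0 : x ≠ 0) : ∃ n : ℕ, A.valuation (q : Qbar) ^ n ≤ A.valuation x := by
  have halg : IsAlgebraic ℤ x :=
    (IsFractionRing.isAlgebraic_iff ℤ ℚ Qbar).mpr (Algebra.IsAlgebraic.isAlgebraic x)
  obtain ⟨p, hp0, hp⟩ := halg.exists_nonzero_coeff_and_aeval_eq_zero
    (mem_nonZeroDivisors_of_ne_zero hx0)
  set N := p.coeff 0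
  obtain ⟨n, m, hm, hN⟩ :=
    Nat.exists_eq_pow_mul_and_not_dvd (n := N.natAbs) (by simpa using hp0) q hq.ne_one
  have hxN : A.valuation (N : Qbar) ≤ A.valuation x := by
    have h1 := congrArg (Polynomial.aeval x) p.X_mul_divX_add
    rw [map_add, map_mul, Polynomial.aeval_X, Polynomial.aeval_C, hp] at h1
    have h2 : (N : Qbar) = -(x * Polynomial.aeval x p.divX) := by
      rw [eq_neg_iff_add_eq_zero, add_comm]
      simpa using h1
    have h3 : Polynomial.aeval x p.divX ∈ A := by
      rw [Polynomial.aeval_eq_sum_range]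
      refine sum_mem fun i _ => ?_
      rw [zsmul_eq_mul]
      exact mul_mem (intCast_mem A.toSubring _) (pow_mem hx i)
    rw [h2, Valuation.map_neg, map_mul]
    exact mul_le_of_le_one_right' ((A.valuation_le_one_iff _).mpr h3)
  refine ⟨n, le_trans (le_of_eq ?_) hxN⟩
  have hm' : A.valuation (m : Qbar) = 1 := by
    have := valuation_int_eq_one hq hA (z := (m : ℤ)) (by exact_mod_cast hm)
    rwa [Int.cast_natCast] at this
  rcases Int.natAbs_eq N with h | h <;>
    rw [h, hN] <;> simp [map_mul, map_pow, Valuation.map_neg, hm']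

theorem isDiscreteValuationRing_intK (hq : q.Prime) (hA : A.LiesOverPrime q) :
    IsDiscreteValuationRing (intK A (KI A)) := by
  refine IsDiscreteValuationRing.ofHasUnitMulPowIrreducibleFactorization
    ⟨(q : intK A (KI A)), irreducible_q_intK hq hA, fun {x} hx => ?_⟩
  obtain ⟨N, hN⟩ := exists_pow_le_valuation hq hA (x := ((x : KI A) : Qbar)) x.2
    fun h => hx (Subtype.ext (Subtype.ext h))
  induction N generalizing x with
  | zero =>
    refine ⟨0, ?_⟩
    rw [pow_zero] at hN ⊢
    exact (associated_one_iff_isUnit.mpr ((isUnit_intK_iff x).mpr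
      (le_antisymm ((A.valuation_le_one_iff _).mpr x.2) hN))).symm
  | succ N ih =>
    rcases eq_or_lt_of_le ((A.valuation_le_one_iff _).mpr x.2) with h1 | h1
    · exact ⟨0, by
        rw [pow_zero]
        exact (associated_one_iff_isUnit.mpr ((isUnit_intK_iff x).mpr h1)).symm⟩
    obtain ⟨y, rfl⟩ := q_dvd_of_lt hq hA h1
    have hy : y ≠ 0 := fun h => hx (by rw [h, mul_zero])
    have hpos : 0 < A.valuation (q : Qbar) :=
      zero_lt_iff.mpr (by simpa using hq.ne_zero)
    push_cast at hN
    rw [map_mul, pow_succ', mul_le_mul_iff_right₀ hpos] at hN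
    obtain ⟨n, hn⟩ := ih hy hN
    exact ⟨n + 1, by rw [pow_succ']; exact hn.mul_left _⟩

/-- The subgroup of inertia as automorphisms over its fixed field. -/
def inertiaOver (A : ValuationSubring Qbar) : Subgroup (Qbar ≃ₐ[KI A] Qbar) :=
  (A.inertiaSubgroupIn ℚ).comap (AlgEquiv.restrictScalarsHom ℚ)

/-- The context with a given root of unity. -/
theorem exists_ctx_zeta (hq : q.Prime) (A : ValuationSubring Qbar) (hA : A.LiesOverPrime q)
    {ζ : Qbar} (hζ : IsPrimitiveRoot ζ q) :
    ∃ X : Ctx q, X.A = A ∧ X.K = IntermediateField.fixedField (A.inertiaSubgroupIn ℚ) ∧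
      X.ζ = ζ := by
  have hmem : ∀ c : KI A, (c : Qbar) ∈ A ↔ c ∈ Set.range (algebraMap (intK A (KI A)) (KI A)) :=
    fun c => ⟨fun h => ⟨⟨c, h⟩, rfl⟩, fun ⟨d, hd⟩ => hd ▸ d.2⟩
  let D : FixedData (intK A (KI A)) (KI A) Qbar :=
    { A := A
      G := inertiaOver A
      fixed := fun x hx => by
        have hxK : x ∈ KI A := mem_inertiaFixed.mpr fun σ hσ =>
          hx (AlgEquiv.ofRingEquiv (f := σ.toRingEquiv) fun c => mem_inertiaFixed.mp c.2 σ hσ)
            (by
              show AlgEquiv.restrictScalars ℚ _ ∈ A.inertiaSubgroupIn ℚ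
              convert hσ using 1
              exact AlgEquiv.ext fun _ => rfl)
        exact ⟨⟨x, hxK⟩, rfl⟩
      res_fixed := fun σ hσ a ha => A.mem_nonunits_iff.mp
        ((mem_inertiaSubgroupIn_iff.mp hσ).2 a ha)
      mem_iff := hmem
      π := (q : intK A (KI A))
      lt_one_iff := fun c => lt_one_iff_dvd hq hA c }
  refine ⟨{
    prime := hq
    A := A
    lies := hA
    K := KI A
    fixedData := D
    fixedData_A := rfl
    fixedData_π := rfl
    dvr := isDiscreteValuationRing_intK hq hA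
    res_surj := fun a ha => by
      obtain ⟨c, hc, hcA, h⟩ := exists_mem_inertiaFixed_sub_lt hq hA ha
      exact ⟨⟨⟨c, hc⟩, hcA⟩, h⟩
    roots := fun n hn hqn => by
      have : NeZero (n : Qbar) := ⟨Nat.cast_ne_zero.mpr hn.ne'⟩
      obtain ⟨z, hz⟩ := HasEnoughRootsOfUnity.exists_primitiveRoot Qbar n
      have hzA : z ∈ A := (A.valuation_le_one_iff _).mp
        (valuation_eq_one_of_pow_eq_one hn.ne' hz.pow_eq_one).le
      refine ⟨⟨⟨z, mem_inertiaFixed_of_pow_eq_one hq hA hqn hz.pow_eq_one⟩, hzA⟩, ?_⟩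
      exact IsPrimitiveRoot.of_map_of_injective
        (f := (algebraMap (KI A) Qbar).comp (intK A (KI A)).subtype) hz
        ((algebraMap (KI A) Qbar).injective.comp Subtype.val_injective)
    ζ := ζ
    hζ := hζ }, rfl, rfl, rfl⟩

/-- **The context exists.** -/
theorem exists_ctx (hq : q.Prime) (A : ValuationSubring Qbar) (hA : A.LiesOverPrime q) :
    ∃ X : Ctx q, X.A = A ∧ X.K = IntermediateField.fixedField (A.inertiaSubgroupIn ℚ) := by
  have : NeZero (q : Qbar) := ⟨Nat.cast_ne_zero.mpr hq.ne_zero⟩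
  obtain ⟨ζ, hζ⟩ := HasEnoughRootsOfUnity.exists_primitiveRoot Qbar q
  obtain ⟨X, h₁, h₂, -⟩ := exists_ctx_zeta hq A hA hζ
  exact ⟨X, h₁, h₂⟩

end FLTAgent.CarayolSquare.Plumbing
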