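import Fermat.Agent.ModularFF.Field
import Fermat.Prelude.Def_ModularCurve_X0ModL
import Fermat.Prelude.Def_ModularCurve_ArithmeticGalois
import Mathlib.LinearAlgebra.Basis.VectorSpace
import Mathlib.FieldTheory.IsAlgClosed.AlgebraicClosure

/-!
# Series with coefficients in a subfield of `ℚ̄`

An element of `ℚ̄ (S)`, for a set `S` of series with coefficients in `K`, whose coefficients lie in
`K` lies in `K (S)`; any element depends on finitely many constants (`exists_finite_constants`).
Applied to the function field of `X₀(N)` in `mem_adjoin_K_of_mem_bar`.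
-/

set_option autoImplicit false

noncomputable section

open ModularCurve

namespace FLTAgent.CarayolSquare.Plumbing

local notation "Qbar" => AlgebraicClosure ℚ
local notation "Ser'" => LaurentSeries (AlgebraicClosure ℚ)

variable (K : IntermediateField ℚ Qbar)

/-- Series with coefficients in `K`. -/
def coeffsIn : Subfield Ser' := (coeffMap (algebraMap K Qbar)).fieldRange

variable {K}

theorem mem_coeffsIn {s : Ser'} : s ∈ coeffsIn K ↔ ∀ n, s.coeff n ∈ K := by
  constructor
  · rintro ⟨t, rfl⟩ n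
    exact (t.coeff n).2
  · intro h
    exact ⟨⟨fun n => ⟨s.coeff n, h n⟩, s.isPWO_support'.mono fun n hn h0 =>
      hn (Subtype.ext h0)⟩, HahnSeries.ext rfl⟩

theorem algebraMap_Ser_eq (c : K) :
    algebraMap K Ser' c = algebraMap Qbar Ser' (c : Qbar) := by
  rw [algebraMap_laurentSeries_eq_single]
  show HahnSeries.ofPowerSeries ℤ Qbar (algebraMap K (PowerSeries Qbar) c) = _
  rw [show algebraMap K (PowerSeries Qbar) c = PowerSeries.C (c : Qbar) from rfl,
    HahnSeries.ofPowerSeries_C]
  rfl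

/-- A functional applied to all coefficients. -/
def coeffProj (φ : Qbar →ₗ[K] K) : Ser' →+ Ser' where
  toFun s :=
    { coeff := fun n => (φ (s.coeff n) : Qbar)
      isPWO_support' := s.isPWO_support'.mono fun n hn h => hn (by simp [h]) }
  map_zero' := HahnSeries.ext (funext fun n => by simp)
  map_add' s t := HahnSeries.ext (funext fun n => by simp)

theorem coeffProj_coeff (φ : Qbar →ₗ[K] K) (s : Ser') (n : ℤ) :
    (coeffProj φ s).coeff n = (φ (s.coeff n) : Qbar) := rfl

theorem coeffProj_mul (φ : Qbar →ₗ[K] K) {x : Ser'} (hx : x ∈ coeffsIn K) (s : Ser') :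
    coeffProj φ (x * s) = x * coeffProj φ s := by
  ext n
  rw [coeffProj_coeff, HahnSeries.coeff_mul,
    HahnSeries.coeff_mul_right' (y := coeffProj φ s) s.isPWO_support (fun n hn h => hn (by
      rw [coeffProj_coeff, h, map_zero, ZeroMemClass.coe_zero]))]
  rw [map_sum, AddSubmonoidClass.coe_finsetSum]
  refine Finset.sum_congr rfl fun ij _ => ?_
  have : x.coeff ij.1 * s.coeff ij.2 = (⟨_, mem_coeffsIn.mp hx ij.1⟩ : K) • s.coeff ij.2 := rfl
  rw [this, map_smul, coeffProj_coeff]
  rfl

theorem coeffProj_mem {S : Set Ser'} (hS : S ⊆ coeffsIn K) (φ : Qbar →ₗ[K] K) {r : Ser'}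
    (hr : r ∈ Algebra.adjoin Qbar S) : coeffProj φ r ∈ IntermediateField.adjoin K S := by
  rw [← Subalgebra.mem_toSubmodule, Algebra.adjoin_eq_span] at hr
  suffices h : ∀ c : Qbar, coeffProj φ (algebraMap Qbar Ser' c * r) ∈
      IntermediateField.adjoin K S by simpa using h 1
  induction hr using Submodule.span_induction with
  | mem m hm =>
    intro c
    have hmem : m ∈ IntermediateField.adjoin K S ∧ m ∈ coeffsIn K := by
      induction hm using Submonoid.closure_induction with
      | mem y hy => exact ⟨IntermediateField.subset_adjoin _ _ hy, hS hy⟩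
      | one => exact ⟨one_mem _, one_mem _⟩
      | mul y z _ _ hy hz => exact ⟨mul_mem hy.1 hz.1, mul_mem hy.2 hz.2⟩
    rw [mul_comm, coeffProj_mul φ hmem.2]
    refine mul_mem hmem.1 ?_
    have : coeffProj φ (algebraMap Qbar Ser' c) = algebraMap K Ser' (φ c) := by
      ext n
      rw [coeffProj_coeff, algebraMap_Ser_eq, algebraMap_laurentSeries_eq_single,
        algebraMap_laurentSeries_eq_single, HahnSeries.coeff_single, HahnSeries.coeff_single]
      split <;> simp
    rw [this]
    exact IntermediateField.algebraMap_mem _ _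
  | zero => intro c; simp
  | add a b _ _ ha hb => intro c; rw [mul_add, map_add]; exact add_mem (ha c) (hb c)
  | smul d a _ ha =>
    intro c
    rw [Algebra.smul_def, ← mul_assoc, ← map_mul]
    exact ha _

/-- **Descent of constants.** -/
theorem mem_adjoin_of_coeffsIn {S : Set Ser'} (hS : S ⊆ coeffsIn K) {x : Ser'}
    (hx : x ∈ IntermediateField.adjoin Qbar S) (hxK : x ∈ coeffsIn K) :
    x ∈ IntermediateField.adjoin K S := by
  rw [IntermediateField.mem_adjoin_iff_div] at hx
  obtain ⟨r, hr, s, hs, rfl⟩ := hx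
  rcases eq_or_ne s 0 with rfl | hs0
  · simp
  obtain ⟨n, hn⟩ : ∃ n, s.coeff n ≠ 0 := by
    by_contra h
    push Not at h
    exact hs0 (HahnSeries.ext (funext h))
  obtain ⟨φ, hφ⟩ := LinearMap.exists_leftInverse_of_injective
    (LinearMap.toSpanSingleton K Qbar (s.coeff n))
    (LinearMap.ker_eq_bot.mpr (smul_left_injective K hn))
  have hφ1 : φ (s.coeff n) = 1 := by simpa using LinearMap.congr_fun hφ 1
  have hne : coeffProj φ s ≠ 0 := fun h => by
    have := congrArg (fun t : Ser' => t.coeff n) h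
    simp [coeffProj_coeff, hφ1] at this
  have h : r / s * coeffProj φ s = coeffProj φ r := by
    rw [← coeffProj_mul φ hxK, div_mul_cancel₀ _ hs0]
  rw [← mul_div_cancel_right₀ (r / s) hne, h]
  exact div_mem (coeffProj_mem hS φ hr) (coeffProj_mem hS φ hs)

theorem coeffMap_eq_self {σ : Qbar ≃ₐ[ℚ] Qbar} (hσ : ∀ c ∈ K, σ c = c) {x : Ser'}
    (hx : x ∈ coeffsIn K) : coeffMap (σ : Qbar →+* Qbar) x = x := by
  ext n
  rw [coeffMap_coeff]
  exact hσ _ (mem_coeffsIn.mp hx n)

/-- Every element of `ℚ̄ (S)` depends on finitely many constants. -/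
theorem exists_finite_constants {S : Set Ser'} (hS : S ⊆ coeffsIn K) {z : Ser'}
    (hz : z ∈ IntermediateField.adjoin Qbar S) :
    ∃ E : IntermediateField ℚ Qbar, FiniteDimensional ℚ E ∧ ∀ σ σ' : Qbar ≃ₐ[ℚ] Qbar,
      (∀ c ∈ K, σ c = c) → (∀ c ∈ K, σ' c = c) → (∀ c ∈ E, σ c = σ' c) →
        coeffMap (σ : Qbar →+* Qbar) z = coeffMap (σ' : Qbar →+* Qbar) z := by
  induction hz using IntermediateField.adjoin_induction with
  | mem x hx =>
    exact ⟨⊥, inferInstance, fun σ σ' h h' _ => by
      rw [coeffMap_eq_self h (hS hx), coeffMap_eq_self h' (hS hx)]⟩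
  | algebraMap c =>
    refine ⟨IntermediateField.adjoin ℚ {c},
      IntermediateField.adjoin.finiteDimensional
        (AlgebraicClosure.isAlgebraic ℚ |>.isAlgebraic c).isIntegral,
      fun σ σ' _ _ h => ?_⟩
    rw [coeffMap_algebraMap, coeffMap_algebraMap]
    congr 1
    exact h c (IntermediateField.mem_adjoin_simple_self ℚ c)
  | add x y _ _ hx hy =>
    obtain ⟨E, hE, hEx⟩ := hx
    obtain ⟨E', hE', hEy⟩ := hy
    exact ⟨E ⊔ E', inferInstance, fun σ σ' h h' hc => by
      rw [map_add, map_add, hEx σ σ' h h' fun c hc' => hc c ((le_sup_left : E ≤ E ⊔ E') hc'),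
        hEy σ σ' h h' fun c hc' => hc c ((le_sup_right : E' ≤ E ⊔ E') hc')]⟩
  | inv x _ hx =>
    obtain ⟨E, hE, hEx⟩ := hx
    exact ⟨E, hE, fun σ σ' h h' hc => by rw [map_inv₀, map_inv₀, hEx σ σ' h h' hc]⟩
  | mul x y _ _ hx hy =>
    obtain ⟨E, hE, hEx⟩ := hx
    obtain ⟨E', hE', hEy⟩ := hy
    exact ⟨E ⊔ E', inferInstance, fun σ σ' h h' hc => by
      rw [map_mul, map_mul, hEx σ σ' h h' fun c hc' => hc c ((le_sup_left : E ≤ E ⊔ E') hc'),
        hEy σ σ' h h' fun c hc' => hc c ((le_sup_right : E' ≤ E ⊔ E') hc')]⟩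

/-! ### The function field of `X₀(N)` -/

theorem qExpand_jqModC_mem_coeffsIn (d : ℕ) [NeZero d] :
    qExpand Qbar d (jqModC Qbar) ∈ coeffsIn K := by
  refine ⟨qExpand K d (jqModC K), ?_⟩
  rw [coeffMap_qExpand]
  exact congrArg _ (map_jqModC _)

theorem divisorExpansionsC_subset_coeffsIn (N : ℕ) :
    divisorExpansionsC Qbar N ⊆ coeffsIn K := by
  rintro _ ⟨d, hd, -, rfl⟩
  exact qExpand_jqModC_mem_coeffsIn d

theorem modularFunctionFieldBar_eq (N : ℕ) [NeZero N] :
    modularFunctionFieldBar N = modularFunctionFieldFullC Qbar N := by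
  show ModularFF.modField Qbar N = _
  rw [ModularFF.modField_eq_adjoin, modularFunctionFieldFullC]
  congr 1
  ext x
  constructor
  · rintro ⟨⟨d, hd⟩, rfl⟩
    have : NeZero d := ⟨(Nat.pos_of_mem_divisors hd).ne'⟩
    exact ⟨d, inferInstance, Nat.dvd_of_mem_divisors hd, rfl⟩
  · rintro ⟨d, hd0, hd, rfl⟩
    exact ⟨⟨d, Nat.mem_divisors.mpr ⟨hd, NeZero.ne N⟩⟩, rfl⟩

/-- The rational elements of `F_N` are in `K (j (d τ) : d ∣ N)`. -/
theorem mem_adjoin_K_of_mem_bar {N : ℕ} [NeZero N] {x : Ser'} (hx : x ∈ modularFunctionFieldBar N)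
    (hxK : x ∈ coeffsIn K) : x ∈ IntermediateField.adjoin K (divisorExpansionsC Qbar N) := by
  rw [modularFunctionFieldBar_eq] at hx
  exact mem_adjoin_of_coeffsIn (divisorExpansionsC_subset_coeffsIn N) hx hxK

theorem mem_bar_of_mem_adjoin_K {N : ℕ} [NeZero N] {x : Ser'}
    (hx : x ∈ IntermediateField.adjoin K (divisorExpansionsC Qbar N)) :
    x ∈ modularFunctionFieldBar N := by
  induction hx using IntermediateField.adjoin_induction with
  | mem y hy =>
    rw [modularFunctionFieldBar_eq]
    exact IntermediateField.subset_adjoin _ _ hy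
  | algebraMap c =>
    rw [algebraMap_Ser_eq]
    exact IntermediateField.algebraMap_mem _ _
  | add a b _ _ ha hb => exact add_mem ha hb
  | inv a _ ha => exact inv_mem ha
  | mul a b _ _ ha hb => exact mul_mem ha hb

end FLTAgent.CarayolSquare.Plumbing
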