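import Fermat.Agent.CarayolSquare.Plumbing.SplitFunction
import Fermat.Agent.CarayolSquare.Plumbing.Ctx
import Fermat.Agent.CarayolSquare.Interface

/-!
# From the local theorem to the bound on torsion

`bound_of_model` turns `RootDescends` for one model into a bound on the torsion, and
`coreInput_of`: models and `RootDescends` give `CoreInput`.
-/

set_option autoImplicit false

noncomputable section

open ModularCurve AlgebraicCurve FLTAgent.HeckeJacobian FLTAgent.SemistableHecke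

namespace FLTAgent.CarayolSquare.Plumbing

local notation "Qbar" => AlgebraicClosure ℚ

variable {q : ℕ} {M' : ℕ} [NeZero M'] [NeZero q]

variable {X : Ctx q} {M₁ : ℕ} [NeZero M₁]

omit [NeZero q] in
/-- An identity in an extension descends by the norm. -/
theorem exists_pow_of_norm {N : ℕ} [NeZero N] {F : IntermediateField X.K Ser}
    (hle : imField X M₁ N ≤ F) {d : ℕ}
    (hd : Module.finrank (imField X M₁ N) (IntermediateField.extendScalars hle) = d)
    {f : modularFunctionFieldBar N} (hf : (f : Ser) ∈ coeffsIn X.K) {e m : ℕ} {κ : X.K} {g : F}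
    (h : (iota X M₁ (f : Ser)) ^ e = algebraMap X.K Ser κ * (g : Ser) ^ m) :
    ∃ y : modularFunctionFieldBar N,
      f ^ (e * d) = algebraMap Qbar _ ((κ : Qbar) ^ d) * y ^ m := by
  let a : imField X M₁ N := ⟨_, iota_mem_imField f.2 hf⟩
  let g' : IntermediateField.extendScalars hle := ⟨(g : Ser), g.2⟩
  have h1 : algebraMap (imField X M₁ N) (IntermediateField.extendScalars hle) (a ^ e) =
      algebraMap (imField X M₁ N) (IntermediateField.extendScalars hle)
        (algebraMap X.K (imField X M₁ N) κ) * g' ^ m := by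
    refine Subtype.ext ?_
    rw [map_pow]
    push_cast
    exact h
  have h2 := congrArg (Algebra.norm (imField X M₁ N)) h1
  rw [map_mul, Algebra.norm_algebraMap, Algebra.norm_algebraMap, hd, map_pow, ← pow_mul] at h2
  obtain ⟨y, hy⟩ := exists_bar_of_mem_imField (Algebra.norm (imField X M₁ N) g').2
  refine ⟨y, Subtype.ext (iota_injective (X := X) (M₁ := M₁) ?_)⟩
  have h3 := congrArg (Subtype.val : imField X M₁ N → Ser) h2
  push_cast at h3
  push_cast
  rw [map_pow, map_mul, map_pow, map_pow, hy, ← algebraMap_Ser_eq, AlgHom.commutes]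
  exact h3

/-- The bound for a context and a model. -/
theorem bound_of_model {p : ℕ} (hp : p.Prime) (hqp : q ≠ p) (hqM : ¬ q ∣ M')
    (Γ : Subgroup (Qbar ≃ₐ[ℚ] Qbar)) (hI : ∀ σ ∈ Γ, ∀ c ∈ X.K, σ c = c)
    (hK : ∀ c : Qbar, (∀ σ ∈ Γ, σ c = c) → c ∈ X.K) (G : Model X M₁) (hM : M' ∣ M₁)
    (hroot : G.RootDescends) :
    ∃ c : ℕ, ∀ (k : ℕ) (x : JZero (M' * q * q)), (p ^ k) • x = 0 → (∀ σ ∈ Γ, σ • x = x) →
      pushJ (heckeAlphaBar Qbar (M' * q) q) x = 0 →
        pushJ (heckeBetaBar Qbar (M' * q) q) x = 0 → (p ^ c) • x = 0 := by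
  have := finite_over_imField G hM
  obtain ⟨e, he, hroot⟩ := hroot
  set d := Module.finrank (imField X M₁ (M' * q * q))
    (IntermediateField.extendScalars (imField_le_split G hM)) with hd
  have hd0 : 0 < d := Module.finrank_pos
  refine ⟨e * d, fun k x hx hfix hα hβ => ?_⟩
  suffices hxe : (e * d) • x = 0 by
    obtain ⟨j, -, hord⟩ := (Nat.dvd_prime_pow hp).mp (addOrderOf_dvd_iff_nsmul_eq_zero.mpr hx)
    have hle : p ^ j ≤ e * d :=
      Nat.le_of_dvd (by positivity) (hord ▸ addOrderOf_dvd_iff_nsmul_eq_zero.mpr hxe)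
    have hj : j ≤ e * d := le_trans (Nat.lt_pow_self hp.one_lt).le hle
    exact addOrderOf_dvd_iff_nsmul_eq_zero.mp (hord ▸ pow_dvd_pow p hj)
  have hm : p ^ k ≠ 0 := pow_ne_zero _ hp.ne_zero
  have hqm : ¬ q ∣ p ^ k := fun h =>
    hqp ((Nat.prime_dvd_prime_iff_eq X.prime hp).mp (X.prime.dvd_of_dvd_pow h))
  obtain ⟨D, f, F', rfl, -, hf0, hf, hdiv, hF', hF⟩ :=
    exists_splitFunction rfl hqM Γ hI hK G hM hm hx hfix hα hβ
  obtain ⟨κ, g, hg⟩ :=
    hroot (p ^ k) (Nat.pos_of_ne_zero hm) hqm F' hF.ne_zero hF.valuation hF.normNone hF.normZero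
  obtain ⟨y, hy⟩ := exists_pow_of_norm (imField_le_split G hM) hd.symm hf (κ := κ) (g := g)
    (e := e) (m := p ^ k) (by
      have := congrArg Subtype.val hg
      push_cast [hF'] at this
      exact this)
  have hne : f ^ (e * d) ≠ 0 := pow_ne_zero _ hf0
  have hκ : ((κ : Qbar) ^ d) ≠ 0 := fun h0 => hne (by rw [hy, h0, map_zero, zero_mul])
  have hy0 : y ≠ 0 := fun h0 => hne (by rw [hy, h0, zero_pow hm, mul_zero])
  rw [Pic0.mk]
  refine (QuotientAddGroup.mk_nsmul _ _ _).symm.trans ((QuotientAddGroup.eq_zero_iff _).mpr ?_)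
  rw [AddSubgroup.mem_addSubgroupOf]
  refine ⟨y, hy0, fun v => ?_⟩
  have h1 : v.ord (f ^ (e * d)) = v.ord (y ^ p ^ k) := by
    rw [hy, ord_const_mul v hκ (pow_ne_zero _ hy0)]
  rw [FFBasic.ord_pow, FFBasic.ord_pow, ← hdiv v, Finsupp.smul_apply, nsmul_eq_mul] at h1
  rw [AddSubmonoidClass.coe_nsmul, Finsupp.smul_apply, nsmul_eq_mul]
  refine mul_left_cancel₀ (Int.natCast_ne_zero.mpr hm) ?_
  rw [← h1]
  ring

/-- **`CoreInput` from models and the local theorem.** -/
theorem coreInput_of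
    (hmodel : ∀ {q : ℕ} (X : Ctx q) (M' : ℕ), 0 < M' → ¬ q ∣ M' →
      ∃ (M₁ : ℕ) (_ : NeZero M₁), M' ∣ M₁ ∧ Nonempty (Model X M₁))
    (hroot : ∀ {q : ℕ} (X : Ctx q) (M₁ : ℕ) [NeZero M₁] (G : Model X M₁), G.RootDescends) :
    CoreInput := by
  intro q p N₁ hN₁ hq0 hq hp hqp hdvd hsq P hP
  obtain ⟨M', rfl⟩ := exists_eq_mul_left_of_dvd hdvd
  have : NeZero M' := ⟨fun h => hN₁.out (by rw [h, zero_mul])⟩
  have hqM : ¬ q ∣ M' := fun ⟨a, ha⟩ => hsq ⟨a, by rw [ha]; ring⟩
  obtain ⟨X, hXA, hXK⟩ := exists_ctx hq P hP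
  obtain ⟨M₁, hM₁, hM, ⟨G⟩⟩ := hmodel X M' (Nat.pos_of_neZero M') hqM
  refine bound_of_model hp hqp hqM (P.inertiaSubgroupIn ℚ) (fun σ hσ c hc => ?_) (fun c hc => ?_)
    G hM (hroot X M₁ G)
  · rw [hXK] at hc
    exact (IntermediateField.mem_fixedField_iff _ _).mp hc σ hσ
  · rw [hXK]
    exact (IntermediateField.mem_fixedField_iff _ _).mpr hc

end FLTAgent.CarayolSquare.Plumbing
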