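import Fermat.Agent.CarayolSquare.Plumbing.Transport
import Fermat.Agent.HeckeJacobian.HeckeCommute
import Fermat.Agent.ModularFF.AtkinLehnerQbar
import Fermat.Agent.SemistableHecke.Pushforward

/-!
# The norms to level `q M'` and to the line fields

For a function of level `q² M'` with coefficients in `K` the norm along either degeneracy map goes,
under `τ ↦ τ/q`, to the norm from `splitField` to a line field (`normZero_eq`, `normNone_eq`).
-/

set_option autoImplicit false

noncomputable section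

open ModularCurve AlgebraicCurve FLTAgent.HeckeJacobian

namespace FLTAgent.CarayolSquare.Plumbing

local notation "Qbar" => AlgebraicClosure ℚ

/-! ### Extensions of prime degree -/

theorem linearIndependent_pow_of_prime {A B : Type*} [Field A] [Field B] [Algebra A B] {n : ℕ}
    (hn : n.Prime) (hdeg : Module.finrank A B = n) {θ : B}
    (hθ : θ ∉ Set.range (algebraMap A B)) :
    LinearIndependent A fun i : Fin n => θ ^ (i : ℕ) := by
  have : Module.Finite A B := Module.finite_of_finrank_pos (hdeg ▸ hn.pos)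
  have hint : IsIntegral A θ := Algebra.IsIntegral.isIntegral θ
  have h1 : (minpoly A θ).natDegree ∣ n := by
    rw [← hdeg, ← IntermediateField.adjoin.finrank hint]
    exact Dvd.intro _ (Module.finrank_mul_finrank A (IntermediateField.adjoin A {θ}) B)
  rcases (Nat.dvd_prime hn).mp h1 with h | h
  · exact absurd (minpoly.mem_range_of_degree_eq_one A θ (by
      rw [Polynomial.degree_eq_natDegree (minpoly.ne_zero hint), h]; rfl)) hθ
  · exact h ▸ linearIndependent_pow θ

theorem finrankAlong_comp {K F F' F'' : Type*} [Field K] [Field F] [Field F'] [Field F'']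
    [Algebra K F] [Algebra K F'] [Algebra K F''] (f : F →ₐ[K] F') (g : F' →ₐ[K] F'') :
    finrankAlong K (g.comp f) = finrankAlong K f * finrankAlong K g := by
  let := algebraAlong f
  let := algebraAlong g
  let : Algebra F F'' := algebraAlong (g.comp f)
  have : IsScalarTower F F' F'' := IsScalarTower.of_algebraMap_eq fun _ => rfl
  exact (Module.finrank_mul_finrank F F' F'').symm

variable {A B Ω k : Type*} [Field A] [Field B] [Field Ω] [Field k] [Algebra A B] [Algebra k Ω]

/-- **Transfer of norms.** -/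
theorem norm_transfer (ψ : B →+* Ω) {E F : IntermediateField k Ω} (hEF : E ≤ F) {n : ℕ}
    (hn : n.Prime) (hdeg : Module.finrank A B = n)
    (hdegF : Module.finrank E (IntermediateField.extendScalars hEF) = n) {θ : B}
    (hθF : ψ θ ∈ F) (hθE : ψ θ ∉ E) (hθA : θ ∉ Set.range (algebraMap A B)) {f : B}
    (hfF : ψ f ∈ F)
    (hcoef : ∀ (c : Fin n → A) (j : Fin n),
      f * θ ^ (j : ℕ) = ∑ i, algebraMap A B (c i) * θ ^ (i : ℕ) →
        ∀ i, ψ (algebraMap A B (c i)) ∈ E) :
    ((Algebra.norm E (⟨ψ f, hfF⟩ : IntermediateField.extendScalars hEF) : E) : Ω) =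
      ψ (algebraMap A B (Algebra.norm A f)) := by
  classical
  have : NeZero n := ⟨hn.ne_zero⟩
  let θ' : IntermediateField.extendScalars hEF := ⟨ψ θ, hθF⟩
  have hθ' : θ' ∉ Set.range (algebraMap E (IntermediateField.extendScalars hEF)) := by
    rintro ⟨x, hx⟩
    have : (x : Ω) = ψ θ := congrArg Subtype.val hx
    exact hθE (this ▸ x.2)
  let b := basisOfLinearIndependentOfCardEqFinrank (linearIndependent_pow_of_prime hn hdeg hθA)
    (by rw [Fintype.card_fin, hdeg])
  let b' := basisOfLinearIndependentOfCardEqFinrank (linearIndependent_pow_of_prime hn hdegF hθ')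
    (by rw [Fintype.card_fin, hdegF])
  have hb : ∀ i, b i = θ ^ (i : ℕ) := fun i => by simp [b]
  have hb' : ∀ i, b' i = θ' ^ (i : ℕ) := fun i => by simp [b']
  set f' : IntermediateField.extendScalars hEF := ⟨ψ f, hfF⟩
  have hexp : ∀ j : Fin n, f * θ ^ (j : ℕ) =
      ∑ i, algebraMap A B (Algebra.leftMulMatrix b f i j) * θ ^ (i : ℕ) := fun j => by
    rw [← hb j]
    conv_lhs => rw [← b.sum_repr (f * b j)]
    refine Finset.sum_congr rfl fun i _ => ?_
    rw [Algebra.leftMulMatrix_eq_repr_mul, Algebra.smul_def]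
    simp only [hb]
  have hmem : ∀ i j, ψ (algebraMap A B (Algebra.leftMulMatrix b f i j)) ∈ E := fun i j =>
    hcoef (fun i => Algebra.leftMulMatrix b f i j) j (hexp j) i
  let N' : Matrix (Fin n) (Fin n) E := fun i j => ⟨_, hmem i j⟩
  have hN : Algebra.leftMulMatrix b' f' = N' := by
    ext i j : 2
    rw [Algebra.leftMulMatrix_eq_repr_mul]
    have key : f' * b' j = ∑ i, N' i j • b' i := by
      refine Subtype.ext ?_
      rw [AddSubmonoidClass.coe_finsetSum]
      simp only [hb']
      show ψ f * ψ θ ^ (j : ℕ) = ∑ i, ψ (algebraMap A B (Algebra.leftMulMatrix b f i j)) *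
        ψ θ ^ (i : ℕ)
      rw [← map_pow, ← map_mul, hexp j, map_sum]
      exact Finset.sum_congr rfl fun i _ => by rw [map_mul, map_pow]
    rw [key, b'.repr_sum_self]
  rw [Algebra.norm_eq_matrix_det b', hN, Algebra.norm_eq_matrix_det b]
  show E.val.toRingHom N'.det = (ψ.comp (algebraMap A B)) (Algebra.leftMulMatrix b f).det
  rw [RingHom.map_det, RingHom.map_det]
  rfl

/-- The coefficients of a rational element in a rational basis are rational. -/
theorem fixed_of_eq_sum {n : ℕ} {θ f : B}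
    (hli : LinearIndependent A fun i : Fin n => θ ^ (i : ℕ)) (sA : A →+* A) (sB : B →+* B)
    (hcomm : ∀ a, sB (algebraMap A B a) = algebraMap A B (sA a)) (hsθ : sB θ = θ) (hsf : sB f = f)
    (c : Fin n → A) (j : Fin n)
    (h : f * θ ^ (j : ℕ) = ∑ i, algebraMap A B (c i) * θ ^ (i : ℕ)) (i : Fin n) :
    sA (c i) = c i := by
  have h' := congrArg sB h
  simp only [map_mul, map_pow, map_sum, hsθ, hsf, hcomm] at h'
  have h0 : ∑ i, (sA (c i) - c i) • θ ^ (i : ℕ) = 0 := by
    simp only [Algebra.smul_def, map_sub, sub_mul, Finset.sum_sub_distrib]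
    rw [← h', ← h, sub_self]
  exact sub_eq_zero.mp (Fintype.linearIndependent_iff.mp hli _ h0 i)

/-! ### Degrees of the degeneracy maps -/

variable {M' q : ℕ} [NeZero M'] [NeZero q]

theorem finrankAlong_alpha (hq : q.Prime) :
    finrankAlong Qbar (heckeAlphaBar Qbar (M' * q) q) = q := by
  rw [finrankAlong_heckeAlphaBar (M' * q) q hq, if_pos (dvd_mul_left q M')]

theorem finrankAlong_beta (hq : q.Prime) (hqM : ¬ q ∣ M') :
    finrankAlong Qbar (heckeBetaBar Qbar (M' * q) q) = q := by
  obtain ⟨w, h₁, h₂⟩ := ModularFF.alInputs q hq M' hqM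
  have hw : finrankAlong Qbar w = 1 :=
    SemistableHecke.finrankAlong_of_involutive (SemistableHecke.al_involutive h₁ h₂)
  have hβ : finrankAlong Qbar (heckeBetaBar Qbar M' q) = q + 1 := by
    rw [← h₁, finrankAlong_comp, hw, mul_one, finrankAlong_heckeAlphaBar M' q hq, if_neg hqM]
  have hcomp : (heckeBetaBar Qbar (M' * q) q).comp (heckeAlphaBar Qbar M' q) =
      (heckeAlphaBar Qbar (M' * q) q).comp (heckeBetaBar Qbar M' q) :=
    AlgHom.ext fun x => Subtype.ext (by simp)
  have h := congrArg (finrankAlong Qbar) hcomp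
  rw [finrankAlong_comp, finrankAlong_comp, hβ, finrankAlong_alpha hq,
    finrankAlong_heckeAlphaBar M' q hq, if_neg hqM] at h
  exact Nat.eq_of_mul_eq_mul_left (Nat.succ_pos q) h

/-! ### The two norms -/

variable {X : Ctx q} {M₁ : ℕ} [NeZero M₁] (G : Model X M₁)

omit [NeZero q] in
theorem image_gen (b : Bool) :
    (G.LF b).map G.splitField.val = G.lineField ((Pair.base q).line b) := by
  rw [Model.LF, IntermediateField.adjoin_map, Model.lineField]
  congr 1
  rw [← Set.range_comp]
  rfl

theorem finrank_lineField (b : Bool) {h : G.lineField ((Pair.base q).line b) ≤ G.splitField} :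
    Module.finrank (G.lineField ((Pair.base q).line b)) (IntermediateField.extendScalars h) =
      q := by
  let e : G.LF b ≃+* G.lineField ((Pair.base q).line b) :=
    (((G.LF b).equivMap G.splitField.val).trans
      (IntermediateField.equivOfEq (image_gen G b))).toRingEquiv
  let e₂ : G.splitField ≃+* IntermediateField.extendScalars h :=
    { toFun := fun z => ⟨(z : Ser), z.2⟩
      invFun := fun z => ⟨(z : Ser), z.2⟩
      left_inv := fun _ => rfl
      right_inv := fun _ => rfl
      map_mul' := fun _ _ => rfl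
      map_add' := fun _ _ => rfl }
  rw [← Algebra.finrank_eq_of_equiv_equiv e e₂ (RingHom.ext fun _ => rfl)]
  refine le_antisymm (G.finrank_LF_le b) ?_
  have := card_le_finrank (G.embLF_injective b)
  rwa [card_fibre] at this

omit [NeZero q] in
theorem coeff_iota_neg (e : ℕ) [NeZero e] (he : ¬ e ∣ 1) :
    (iota X M₁ (qExpand Qbar e (jqModC Qbar))).coeff (-(M₁ : ℤ)) = 0 := by
  rw [iota_apply, show -(M₁ : ℤ) = (M₁ : ℤ) * (-1) by ring, qExpand_coeff_mul,
    qExpand_coeff_of_not_dvd e _ fun h => he (by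
      have := Int.natAbs_dvd_natAbs.mpr h; simpa using this)]

omit [NeZero q] in
theorem coeff_scale_jfun (b : ZMod q) {c : G.C} (hc : (c : Ser) = iota X M₁ (jqModC Qbar)) :
    (Igusa.scale (X.zetaU b) (c : Ser)).coeff (-(M₁ : ℤ)) =
      ((X.zetaU b ^ (-(M₁ : ℤ)) : Qbarˣ) : Qbar) := by
  rw [Igusa.coeff_scale, hc, iota_apply, show -(M₁ : ℤ) = (M₁ : ℤ) * (-1) by ring,
    qExpand_coeff_mul, coeff_jqModC_neg_one, mul_one]

/-- A function of level `q² M'` outside the line field of `0`. -/
theorem theta_zero_notMem :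
    iota X M₁ (qExpand Qbar q (qExpand Qbar q (jqModC Qbar))) ∉ G.lineField (some 0) := by
  intro hmem
  obtain ⟨c, hc, hc'⟩ := exists_jfun G (d := 1) (one_dvd M₁)
  rw [qExpand_one_apply] at hc
  have hgen : ((G.gen true (.pull c) : G.splitField) : Ser) =
      iota X M₁ (qExpand Qbar q (qExpand Qbar q (jqModC Qbar))) := by
    show G.gs G.one none (.pull c) = _
    rw [gs_pull_none G hc', hc, up_iota, up_iota]
  have hLF : G.gen true (.pull c) ∈ G.LF false := by
    have h : ((G.gen true (.pull c) : G.splitField) : Ser) ∈ (G.LF false).map G.splitField.val := by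
      rw [image_gen G false, hgen]
      exact hmem
    obtain ⟨y, hy, hye⟩ := h
    rwa [← Subtype.ext (hye : (y : Ser) = _)]
  let P : Pair q := ⟨(some 1, some 0), by
    have : Fact q.Prime := ⟨X.prime⟩
    simp⟩
  have h := G.emb_LF_eq G.one false (P := P) (P' := Pair.base q) rfl hLF
  rw [Model.emb_gen, Model.emb_gen] at h
  change G.gs G.one (some 1) (.pull c) = G.gs G.one none (.pull c) at h
  rw [gs_pull_none G hc', hc, up_iota, up_iota] at h
  have h' := congrArg (fun s : Ser => s.coeff (-(M₁ : ℤ))) h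
  change (Igusa.scale (X.zetaU 1) (G.cs (G.twB G.one) c)).coeff _ = _ at h'
  rw [G.twB_one, G.cs_one, coeff_scale_jfun G 1 hc, qExpand_qExpand,
    coeff_iota_neg (q * q) (fun hd => by
      have := Nat.dvd_one.mp hd
      exact X.prime.ne_one (Nat.eq_one_of_mul_eq_one_right this))] at h'
  exact Units.ne_zero _ h'

omit [NeZero q] in
/-- A function of level `q² M'` outside the line field of `∞`. -/
theorem theta_none_notMem : iota X M₁ (jqModC Qbar) ∉ G.lineField none := by
  intro hmem
  have : Fact q.Prime := ⟨X.prime⟩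
  obtain ⟨c, hc, -⟩ := exists_jfun G (d := 1) (one_dvd M₁)
  rw [qExpand_one_apply] at hc
  have hLF : G.gen false (.pull c) ∈ G.LF true := by
    have h : ((G.gen false (.pull c) : G.splitField) : Ser) ∈ (G.LF true).map G.splitField.val := by
      rw [image_gen G true]
      show G.gs G.one (some 0) (.pull c) ∈ _
      rw [gs_pull_zero G, hc]
      exact hmem
    obtain ⟨y, hy, hye⟩ := h
    rwa [← Subtype.ext (hye : (y : Ser) = _)]
  let P : Pair q := ⟨(none, some 1), by simp⟩
  have h := G.emb_LF_eq G.one true (P := P) (P' := Pair.base q) rfl hLF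
  rw [Model.emb_gen, Model.emb_gen] at h
  change Igusa.scale (X.zetaU 1) (G.cs (G.twB G.one) c) = G.gs G.one (some 0) (.pull c) at h
  have h' := congrArg (fun s : Ser => s.coeff (-(M₁ : ℤ))) h
  rw [G.twB_one, G.cs_one, gs_pull_zero G, coeff_scale_jfun G 1 hc] at h'
  have h'' : (c : Ser).coeff (-(M₁ : ℤ)) = 1 := by
    rw [hc, iota_apply, show -(M₁ : ℤ) = (M₁ : ℤ) * (-1) by ring, qExpand_coeff_mul,
      coeff_jqModC_neg_one]
  rw [h''] at h'
  have hu : (X.zetaU (1 : ZMod q)) ^ M₁ = 1 := by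
    have := Units.val_eq_one.mp h'
    rwa [zpow_neg, inv_eq_one, zpow_natCast] at this
  have hζ : X.ζ ^ M₁ = 1 := by
    have := congrArg (fun u : Qbarˣ => (u : Qbar)) hu
    simpa [Ctx.zetaU, ZMod.val_one] using this
  exact G.q_not_dvd ((X.hζ.pow_eq_one_iff_dvd M₁).mp hζ)

omit [NeZero q] in
/-- Coefficients fixed by inertia lie in `K`. -/
theorem mem_coeffsIn_of_fixed {I : Set (Qbar ≃ₐ[ℚ] Qbar)}
    (hK : ∀ c : Qbar, (∀ σ ∈ I, σ c = c) → c ∈ X.K) {s : Ser}
    (hs : ∀ σ ∈ I, coeffMap (σ : Qbar →+* Qbar) s = s) : s ∈ coeffsIn X.K :=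
  mem_coeffsIn.mpr fun n => hK _ fun σ hσ => by
    conv_rhs => rw [← hs σ hσ]
    rfl

variable {I : Set (Qbar ≃ₐ[ℚ] Qbar)} (hI : ∀ σ ∈ I, ∀ c ∈ X.K, σ c = c)
  (hK : ∀ c : Qbar, (∀ σ ∈ I, σ c = c) → c ∈ X.K)

omit [NeZero q] in
include hI hK in
/-- Norms of rational elements along a morphism of fields of series. -/
theorem norm_series {A B : IntermediateField Qbar Ser} (φ : A →ₐ[Qbar] B)
    (sA : (Qbar ≃ₐ[ℚ] Qbar) → A →+* A) (sB : (Qbar ≃ₐ[ℚ] Qbar) → B →+* B)
    (hsA : ∀ σ (a : A), (sA σ a : Ser) = coeffMap (σ : Qbar →+* Qbar) (a : Ser))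
    (hsB : ∀ σ (b : B), (sB σ b : Ser) = coeffMap (σ : Qbar →+* Qbar) (b : Ser))
    (hcomm : ∀ σ (a : A), sB σ (φ a) = φ (sA σ a)) {E F : IntermediateField X.K Ser} (hEF : E ≤ F)
    (hdeg : finrankAlong Qbar φ = q)
    (hdegF : Module.finrank E (IntermediateField.extendScalars hEF) = q)
    (himg : ∀ a : A, (a : Ser) ∈ coeffsIn X.K → iota X M₁ (φ a : Ser) ∈ E) {θ : B}
    (hθK : (θ : Ser) ∈ coeffsIn X.K) (hθF : iota X M₁ (θ : Ser) ∈ F)
    (hθE : iota X M₁ (θ : Ser) ∉ E) {f : B} (hfK : (f : Ser) ∈ coeffsIn X.K)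
    (hfF : iota X M₁ (f : Ser) ∈ F) :
    ((Algebra.norm E (⟨iota X M₁ (f : Ser), hfF⟩ : IntermediateField.extendScalars hEF) : E) :
        Ser) = iota X M₁ (φ (normAlong φ f) : Ser) := by
  let := algebraAlong φ
  have hfix : ∀ {b : B}, (b : Ser) ∈ coeffsIn X.K → ∀ σ ∈ I, sB σ b = b := fun {b} hb σ hσ =>
    Subtype.ext ((hsB σ b).trans (coeffMap_eq_self (hI σ hσ) hb))
  have hrat : ∀ a : A, (∀ σ ∈ I, sA σ a = a) → (a : Ser) ∈ coeffsIn X.K := fun a ha =>
    mem_coeffsIn_of_fixed hK fun σ hσ => (hsA σ a).symm.trans (congrArg Subtype.val (ha σ hσ))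
  have hθA : θ ∉ Set.range (algebraMap A B) := by
    rintro ⟨a, ha⟩
    refine hθE ?_
    rw [← ha]
    refine himg a (hrat a fun σ hσ => φ.injective ?_)
    have := hfix hθK σ hσ
    rw [← ha] at this
    exact (hcomm σ a).symm.trans this
  exact norm_transfer ((iota X M₁).toRingHom.comp B.val.toRingHom) hEF X.prime hdeg hdegF hθF hθE
    hθA (f := f) hfF fun c j hc i => himg (c i) (hrat (c i) fun σ hσ =>
      fixed_of_eq_sum (linearIndependent_pow_of_prime X.prime hdeg hθA) (sA σ) (sB σ) (hcomm σ)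
        (hfix hθK σ hσ) (hfix hfK σ hσ) c j hc i)

/-- The Galois action on a function field. -/
abbrev galHom (N : ℕ) [NeZero N] (σ : Qbar ≃ₐ[ℚ] Qbar) :
    modularFunctionFieldBar N →+* modularFunctionFieldBar N :=
  (arithmeticRingAut (modularFunctionFieldFull N) σ).toRingHom

include hI hK in
/-- **Norm to the line field of `0`.** -/
theorem normZero_eq (hM : M' ∣ M₁) {f : modularFunctionFieldBar (M' * q * q)}
    (hf : (f : Ser) ∈ coeffsIn X.K) (hfF : iota X M₁ (f : Ser) ∈ G.splitField) :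
    ((G.normZero ⟨iota X M₁ (f : Ser), hfF⟩ : G.lineField (some 0)) : Ser) =
      iota X M₁ (normAlong (heckeAlphaBar Qbar (M' * q) q) f : Ser) := by
  have hθmem : qExpand Qbar q (qExpand Qbar q (jqModC Qbar)) ∈
      modularFunctionFieldBar (M' * q * q) := by
    rw [qExpand_qExpand, modularFunctionFieldBar_eq]
    exact IntermediateField.subset_adjoin _ _ ⟨q * q, inferInstance, ⟨M', by ring⟩, rfl⟩
  have hθK : qExpand Qbar q (qExpand Qbar q (jqModC Qbar)) ∈ coeffsIn X.K := by
    rw [qExpand_qExpand]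
    exact qExpand_jqModC_mem_coeffsIn _
  have h := norm_series hI hK (heckeAlphaBar Qbar (M' * q) q) (galHom (M' * q))
    (galHom (M' * q * q)) (fun _ _ => rfl) (fun _ _ => rfl)
    (fun σ a => Subtype.ext ((congrArg (coeffMap (σ : Qbar →+* Qbar))
      (coe_heckeAlphaBar (M' * q) q a)).trans
      (coe_heckeAlphaBar (M' * q) q (galHom (M' * q) σ a)).symm : _))
    G.lineField_zero_le
    (finrankAlong_alpha X.prime) (finrank_lineField G false)
    (fun a ha => by
      rw [coe_heckeAlphaBar]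
      exact imField_le_zero G hM (iota_mem_imField a.2 ha)) (θ := ⟨_, hθmem⟩) hθK
    (imField_le_split G hM (iota_mem_imField hθmem hθK)) (theta_zero_notMem G) hf hfF
  rw [coe_heckeAlphaBar] at h
  exact h

include hI hK in
/-- **Norm to the line field of `∞`.** -/
theorem normNone_eq (hqM : ¬ q ∣ M') (hM : M' ∣ M₁) {f : modularFunctionFieldBar (M' * q * q)}
    (hf : (f : Ser) ∈ coeffsIn X.K) (hfF : iota X M₁ (f : Ser) ∈ G.splitField) :
    ((G.normNone ⟨iota X M₁ (f : Ser), hfF⟩ : G.lineField none) : Ser) =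
      iota X M₁ (qExpand Qbar q (normAlong (heckeBetaBar Qbar (M' * q) q) f : Ser)) := by
  have hθmem : jqModC Qbar ∈ modularFunctionFieldBar (M' * q * q) := by
    rw [modularFunctionFieldBar_eq]
    exact jqModC_mem_full Qbar _
  have hθK : jqModC Qbar ∈ coeffsIn X.K := by
    have := qExpand_jqModC_mem_coeffsIn (K := X.K) 1
    rwa [qExpand_one_apply] at this
  have h := norm_series hI hK (heckeBetaBar Qbar (M' * q) q) (galHom (M' * q))
    (galHom (M' * q * q)) (fun _ _ => rfl) (fun _ _ => rfl)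
    (fun σ a => Subtype.ext (coeffMap_qExpand _ q _)) G.lineField_none_le
    (finrankAlong_beta X.prime hqM) (finrank_lineField G true)
    (fun a ha => by
      rw [coe_heckeBetaBar]
      exact iota_qExpand_mem_none G hM (mem_adjoin_K_of_mem_bar a.2 ha)) (θ := ⟨_, hθmem⟩) hθK
    (imField_le_split G hM (iota_mem_imField hθmem hθK)) (theta_none_notMem G) hf hfF
  rw [coe_heckeBetaBar] at h
  exact h

end FLTAgent.CarayolSquare.Plumbing
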