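import Fermat.Agent.CarayolSquare.Plumbing.Valuations
import Fermat.Agent.MazurStep.CuspFixed
import Fermat.Agent.MazurStep.InertiaSq
import Fermat.Agent.HeckeJacobian.KummerMap
import Fermat.Agent.SemistableHecke.Pushforward

/-!
# Rational functions attached to fixed torsion classes

A torsion class fixed by inertia is the class of `D` with `m • D` the divisor of a function with
coefficients in `K` (`exists_rational_div`); if its pushforward vanishes, the norm of the function
is a constant times an `m`-th power of such a function (`exists_rational_norm`).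
-/

set_option autoImplicit false

noncomputable section

open ModularCurve AlgebraicCurve FLTAgent.HeckeJacobian FLTAgent.SemistableHecke

namespace FLTAgent.CarayolSquare.Plumbing

local notation "Qbar" => AlgebraicClosure ℚ

variable {q : ℕ} {X : Ctx q} {N L : ℕ} [NeZero N] [NeZero L]

omit [NeZero N] in
theorem coe_algebraMap_bar (c : Qbar) :
    ((algebraMap Qbar (modularFunctionFieldBar N) c : modularFunctionFieldBar N) : Ser) =
      algebraMap Qbar Ser c := rfl

theorem coeff_algebraMap_mul (c : Qbar) (s : Ser) (n : ℤ) :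
    (algebraMap Qbar Ser c * s).coeff n = c * s.coeff n := by
  rw [algebraMap_laurentSeries_eq_single, HahnSeries.coeff_single_zero_mul]

omit [NeZero N] in
/-- Multiplying by a constant does not change orders. -/
theorem ord_const_mul (v : Place Qbar (modularFunctionFieldBar N)) {c : Qbar} (hc : c ≠ 0)
    {f : modularFunctionFieldBar N} (hf : f ≠ 0) : v.ord (algebraMap Qbar _ c * f) = v.ord f := by
  rw [v.ord_mul (by simpa using hc) hf, FFBasic.ord_algebraMap, zero_add]

/-- Two functions with the same orders differ by a constant. -/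
theorem exists_const_of_ord_eq {f g : modularFunctionFieldBar N} (hf : f ≠ 0) (hg : g ≠ 0)
    (h : ∀ v : Place Qbar (modularFunctionFieldBar N), v.ord f = v.ord g) :
    ∃ c : Qbar, f = algebraMap Qbar _ c * g := by
  have := FLTAgent.GaloisAttach.isFunctionField_bar N
  obtain ⟨c, hc⟩ := HeckeJacobian.exists_algebraMap_of_forall_ord (K := Qbar) (f := f * g⁻¹)
    fun v => by rw [v.ord_mul hf (inv_ne_zero hg), v.ord_inv, h v, add_neg_cancel]
  exact ⟨c, by rw [hc, inv_mul_cancel_right₀ hg]⟩

variable (Γ : Subgroup (Qbar ≃ₐ[ℚ] Qbar)) (hI : ∀ σ ∈ Γ, ∀ c ∈ X.K, σ c = c)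
  (hK : ∀ c : Qbar, (∀ σ ∈ Γ, σ c = c) → c ∈ X.K)

include hK in
/-- **Normalisation.**  A function whose conjugates are constant multiples of it has a constant
multiple with coefficients in `K`. -/
theorem exists_normalised {f : modularFunctionFieldBar N} (hf : f ≠ 0)
    (h : ∀ σ ∈ Γ, ∃ c : Qbar, gal N σ • f = algebraMap Qbar _ c * f) :
    ∃ c : Qbar, c ≠ 0 ∧
      ((algebraMap Qbar (modularFunctionFieldBar N) c * f : modularFunctionFieldBar N) : Ser) ∈
        coeffsIn X.K := by
  have hf' : (f : Ser) ≠ 0 := fun h0 => hf (Subtype.ext h0)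
  set a := (f : Ser).coeff (f : Ser).order
  have ha : a ≠ 0 := HahnSeries.coeff_order_eq_zero.not.mpr hf'
  refine ⟨a⁻¹, inv_ne_zero ha, mem_coeffsIn.mpr fun n => hK _ fun σ hσ => ?_⟩
  obtain ⟨c, hc⟩ := h σ hσ
  have hcoef : ∀ n, σ ((f : Ser).coeff n) = c * (f : Ser).coeff n := fun n => by
    have := congrArg (fun s : modularFunctionFieldBar N => (s : Ser).coeff n) hc
    simp only [IntermediateField.coe_mul, coe_gal, coeffMap_coeff, coe_algebraMap_bar,
      coeff_algebraMap_mul] at this
    exact this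
  show σ ((algebraMap Qbar Ser a⁻¹ * (f : Ser)).coeff n) =
    (algebraMap Qbar Ser a⁻¹ * (f : Ser)).coeff n
  rw [coeff_algebraMap_mul, map_mul, map_inv₀, hcoef n]
  show (σ a)⁻¹ * _ = _
  have hc0 : c ≠ 0 := fun h0 => ha (σ.injective (by rw [hcoef, h0, zero_mul, map_zero]))
  rw [hcoef, mul_inv, mul_mul_mul_comm, inv_mul_cancel₀ hc0, one_mul]

include hK in
/-- A fixed torsion class comes from a function with coefficients in `K`. -/
theorem exists_rational_div {m : ℕ} {x : JZero N} (hx : m • x = 0) (hfix : ∀ σ ∈ Γ, σ • x = x) :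
    ∃ (D : Divisor.degZero (K := Qbar) (F := modularFunctionFieldBar N))
      (f : modularFunctionFieldBar N), Pic0.mk D = x ∧
      (∀ σ ∈ Γ, gal N σ • (D : Divisor Qbar (modularFunctionFieldBar N)) = D) ∧ f ≠ 0 ∧
      (f : Ser) ∈ coeffsIn X.K ∧
      ∀ v, (m • (D : Divisor Qbar (modularFunctionFieldBar N))) v = v.ord f := by
  have := FLTAgent.GaloisAttach.isFunctionField_bar N
  obtain ⟨O, hO⟩ := MazurStep.exists_galois_fixed_place N
  obtain ⟨D, hD, hDfix⟩ := MazurStep.exists_fixed_divisor O x (gal N '' (Γ : Set _)) (by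
    rintro _ ⟨σ, hσ, rfl⟩
    exact ⟨hO σ, hfix σ hσ⟩)
  have hmD : (Pic0.mk (m • D) : Pic0 Qbar (modularFunctionFieldBar N)) = 0 := by
    show (QuotientAddGroup.mk (m • D) : Pic0 Qbar (modularFunctionFieldBar N)) = 0
    rw [QuotientAddGroup.mk_nsmul]
    exact (congrArg (m • ·) hD).trans hx
  rw [Pic0.mk, QuotientAddGroup.eq_zero_iff, AddSubgroup.mem_addSubgroupOf] at hmD
  obtain ⟨f, hf, hdiv⟩ := hmD
  have hfix' : ∀ σ ∈ Γ, gal N σ • (D : Divisor Qbar (modularFunctionFieldBar N)) = D :=
    fun σ hσ => hDfix _ ⟨σ, hσ, rfl⟩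
  obtain ⟨c, hc, hcf⟩ := exists_normalised Γ hK hf fun σ hσ =>
    exists_const_of_ord_eq ((smul_ne_zero_iff_ne _).mpr hf) hf fun v => by
      have h1 := HeckeJacobian.smul_apply_principal (gal N σ) (D := ((m • D :
        Divisor.degZero (K := Qbar) (F := modularFunctionFieldBar N)) : Divisor Qbar _)) hdiv v
      rw [← h1, ← hdiv v, AddSubmonoidClass.coe_nsmul, smul_comm, hfix' σ hσ]
  refine ⟨D, _, hD, hfix', mul_ne_zero (by simpa using hc) hf, hcf, fun v => ?_⟩
  rw [ord_const_mul v hc hf]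
  exact hdiv v

include hI hK in
/-- The norm of such a function is a constant times an `m`-th power, if the pushforward is zero. -/
theorem exists_rational_norm (φ : modularFunctionFieldBar L →ₐ[Qbar] modularFunctionFieldBar N)
    (hφ : ∀ σ, SemilinearAut.IntertwinesAlong φ.toRingHom (gal L σ) (gal N σ)) {m : ℕ}
    (hm : m ≠ 0) {D : Divisor.degZero (K := Qbar) (F := modularFunctionFieldBar N)}
    {f : modularFunctionFieldBar N} (hf0 : f ≠ 0) (hf : (f : Ser) ∈ coeffsIn X.K)
    (hdiv : ∀ v, (m • (D : Divisor Qbar (modularFunctionFieldBar N))) v = v.ord f)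
    (hp : pushJ φ (Pic0.mk D) = 0) :
    ∃ (κ : X.K) (h : modularFunctionFieldBar L), (h : Ser) ∈ coeffsIn X.K ∧
      (normAlong φ f : Ser) = algebraMap X.K Ser κ * (h : Ser) ^ m := by
  have := FLTAgent.GaloisAttach.isFunctionField_bar L
  have := FLTAgent.GaloisAttach.isFunctionField_bar N
  rw [pushJ_mk, Pic0.mk, QuotientAddGroup.eq_zero_iff, AddSubgroup.mem_addSubgroupOf,
    coe_pushDegZero] at hp
  obtain ⟨h, hh0, hh⟩ := hp
  set Nf := normAlong φ f
  have hNf0 : Nf ≠ 0 := normAlong_ne_zero φ (FFBasic.finiteAlong φ) hf0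
  have hordN : ∀ v : Place Qbar (modularFunctionFieldBar L), v.ord Nf = v.ord (h ^ m) := fun v => by
    rw [FFBasic.ord_pow, ← hh v]
    have := pushforwardAlong_apply_principal φ (integralAlong φ) (FFBasic.finiteAlong φ)
      (FFBasic.normFormulaAlong φ _) hf0 hdiv v
    rw [map_nsmul, Finsupp.smul_apply, nsmul_eq_mul] at this
    exact this.symm
  have hfixN : ∀ σ ∈ Γ, gal L σ • Nf = Nf := fun σ hσ => by
    rw [← normAlong_smul φ (gal L σ) (gal N σ) (hφ σ) f]
    exact congrArg _ (Subtype.ext ((coe_gal σ f).trans (coeffMap_eq_self (hI σ hσ) hf)))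
  obtain ⟨c, hc, hch⟩ := exists_normalised Γ hK hh0 fun σ hσ =>
    exists_const_of_ord_eq ((smul_ne_zero_iff_ne _).mpr hh0) hh0 fun v => by
      have h1 := SemilinearAut.ord_smul (gal L σ) ((gal L σ)⁻¹ • v) h
      have h2 := SemilinearAut.ord_smul (gal L σ) ((gal L σ)⁻¹ • v) Nf
      rw [smul_inv_smul] at h1 h2
      rw [hfixN σ hσ, hordN, hordN, FFBasic.ord_pow, FFBasic.ord_pow] at h2
      rw [h1]
      exact (mul_left_cancel₀ (Int.natCast_ne_zero.mpr hm) h2).symm
  set h' := algebraMap Qbar (modularFunctionFieldBar L) c * h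
  have hh'0 : h' ≠ 0 := mul_ne_zero (by simpa using hc) hh0
  obtain ⟨κ, hκ⟩ := exists_const_of_ord_eq hNf0 (pow_ne_zero m hh'0) fun v => by
    rw [hordN, FFBasic.ord_pow, FFBasic.ord_pow, ord_const_mul v hc hh0]
  have hNfK : (Nf : Ser) ∈ coeffsIn X.K := mem_coeffsIn.mpr fun n => hK _ fun σ hσ => by
    have := congrArg (fun s : modularFunctionFieldBar L => (s : Ser).coeff n) (hfixN σ hσ)
    simp only [coe_gal, coeffMap_coeff] at this
    exact this
  have hser : (Nf : Ser) = algebraMap Qbar Ser κ * (h' : Ser) ^ m := by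
    rw [hκ]; push_cast; rfl
  have hκK : κ ∈ X.K := by
    have h1 : algebraMap Qbar Ser κ ∈ coeffsIn X.K := by
      rw [← mul_inv_cancel_right₀ (pow_ne_zero m (fun h0 => hh'0 (Subtype.ext h0)) :
        (h' : Ser) ^ m ≠ 0) (algebraMap Qbar Ser κ), ← hser]
      exact mul_mem hNfK (inv_mem (pow_mem hch m))
    have := mem_coeffsIn.mp h1 0
    rwa [algebraMap_laurentSeries_eq_single, HahnSeries.coeff_single, if_pos rfl] at this
  exact ⟨⟨κ, hκK⟩, h', hch, hser.trans (by rw [algebraMap_Ser_eq])⟩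

end FLTAgent.CarayolSquare.Plumbing
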