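import Fermat.Agent.CarayolSquare.Plumbing.Rational

/-!
# The function in `splitField` of a fixed torsion class

A torsion class at level `q² M'` fixed by inertia and killed by both pushforwards gives a function
of `splitField` all whose valuations over `K` are `m`-th powers and whose two norms are constants
times `m`-th powers (`exists_splitFunction`): the hypotheses of `RootDescends`.
-/

set_option autoImplicit false

noncomputable section

open ModularCurve AlgebraicCurve FLTAgent.HeckeJacobian FLTAgent.SemistableHecke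

namespace FLTAgent.CarayolSquare.Plumbing

local notation "Qbar" => AlgebraicClosure ℚ

variable {q : ℕ} {M' : ℕ} [NeZero M'] [NeZero q]

variable {X : Ctx q} {M₁ : ℕ} [NeZero M₁]

/-- The hypotheses of `RootDescends` on a function. -/
structure IsPowLike (G : Model X M₁) (m : ℕ) (F : G.splitField) : Prop where
  ne_zero : F ≠ 0
  valuation : ∀ W : ValuationSubring G.splitField,
    (∀ c : X.K, algebraMap X.K G.splitField c ∈ W) →
      ∃ g : G.splitField, g ≠ 0 ∧ W.valuation F = W.valuation (g ^ m)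
  normNone : ∃ (κ : X.K) (g : G.lineField none), G.normNone F = algebraMap X.K _ κ * g ^ m
  normZero : ∃ (κ : X.K) (g : G.lineField (some 0)), G.normZero F = algebraMap X.K _ κ * g ^ m

/-- **The function of a fixed class.** -/
theorem exists_splitFunction {N₁ : ℕ} [NeZero N₁] [NeZero (N₁ * q)] (hN₁ : N₁ = M' * q)
    (hqM : ¬ q ∣ M') (Γ : Subgroup (Qbar ≃ₐ[ℚ] Qbar)) (hI : ∀ σ ∈ Γ, ∀ c ∈ X.K, σ c = c)
    (hK : ∀ c : Qbar, (∀ σ ∈ Γ, σ c = c) → c ∈ X.K) (G : Model X M₁) (hM : M' ∣ M₁) {m : ℕ}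
    (hm : m ≠ 0) {x : JZero (N₁ * q)} (hx : m • x = 0) (hfix : ∀ σ ∈ Γ, σ • x = x)
    (hα : pushJ (heckeAlphaBar Qbar N₁ q) x = 0) (hβ : pushJ (heckeBetaBar Qbar N₁ q) x = 0) :
    ∃ (D : Divisor.degZero (K := Qbar) (F := modularFunctionFieldBar (N₁ * q)))
      (f : modularFunctionFieldBar (N₁ * q)) (F : G.splitField),
      Pic0.mk D = x ∧
      (∀ σ ∈ Γ, gal (N₁ * q) σ • (D : Divisor Qbar (modularFunctionFieldBar (N₁ * q))) = D) ∧
      f ≠ 0 ∧ (f : Ser) ∈ coeffsIn X.K ∧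
      (∀ v, (m • (D : Divisor Qbar (modularFunctionFieldBar (N₁ * q)))) v = v.ord f) ∧
      (F : Ser) = iota X M₁ (f : Ser) ∧ IsPowLike G m F := by
  subst hN₁
  obtain ⟨D, f, rfl, hDfix, hf0, hf, hdiv⟩ := exists_rational_div Γ hK hx hfix
  obtain ⟨κ₀, h₀, hh₀, hN₀⟩ :=
    exists_rational_norm Γ hI hK _ intertwines_alpha hm hf0 hf hdiv hα
  obtain ⟨κ₁, h₁, hh₁, hN₁⟩ :=
    exists_rational_norm Γ hI hK _ intertwines_beta hm hf0 hf hdiv hβ
  have hfF := imField_le_split G hM (iota_mem_imField f.2 hf)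
  refine ⟨D, f, ⟨iota X M₁ (f : Ser), hfF⟩, rfl, hDfix, hf0, hf, hdiv, rfl, ⟨fun h0 => ?_,
    fun W hW => exists_valuation_pow Γ hI hK G (imField_le_split G hM) m _ hDfix hf0 hf hdiv W hW,
    ?_, ?_⟩⟩
  · exact hf0 (Subtype.ext (iota_injective (X := X) (M₁ := M₁)
      ((congrArg Subtype.val h0).trans (map_zero (iota X M₁)).symm)))
  · refine ⟨κ₁, ⟨_, iota_qExpand_mem_none G hM (mem_adjoin_K_of_mem_bar h₁.2 hh₁)⟩,
      Subtype.ext ?_⟩
    rw [normNone_eq G (I := (Γ : Set _)) hI hK hqM hM hf hfF, hN₁]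
    push_cast
    rw [map_mul, map_pow, algebraMap_Ser_eq, algebraMap_laurentSeries_eq_single, qExpand_single,
      mul_zero, ← algebraMap_laurentSeries_eq_single, ← algebraMap_Ser_eq, map_mul,
      AlgHom.commutes, map_pow]
  · refine ⟨κ₀, ⟨_, imField_le_zero G hM (iota_mem_imField h₀.2 hh₀)⟩, Subtype.ext ?_⟩
    rw [normZero_eq G (I := (Γ : Set _)) hI hK hM hf hfF, hN₀, map_mul, AlgHom.commutes, map_pow]
    push_cast
    rfl

end FLTAgent.CarayolSquare.Plumbing
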