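import Fermat.Agent.CarayolSquare.Plumbing.Descent
import Fermat.Agent.CarayolSquare.Geometry.Degree
import Fermat.Agent.CongruenceRel.Setup
import Fermat.Agent.FFBasic.FunctionField

/-!
# The function field of `X₀(q² M')` inside the split Cartan cover

`τ ↦ τ/q` is `qExpand M₁` on series.  It maps `K (j (dτ) : d ∣ q² M')` to `splitField`, which is
finite over the image (`finite_over_imField`), and `K (j (dτ) : d ∣ q M')`, resp. its translate by
`τ ↦ qτ`, to the line fields.
-/

set_option autoImplicit false

noncomputable section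

open ModularCurve IntermediateField

namespace FLTAgent.CarayolSquare.Plumbing

local notation "Qbar" => AlgebraicClosure ℚ

variable {q : ℕ} {X : Ctx q} {M₁ : ℕ} [NeZero M₁]

/-- `τ ↦ τ/q` on series. -/
def iota (X : Ctx q) (M₁ : ℕ) [NeZero M₁] : Ser →ₐ[X.K] Ser where
  __ := qExpand Qbar M₁
  commutes' c := by
    show qExpand Qbar M₁ (algebraMap X.K Ser c) = algebraMap X.K Ser c
    rw [algebraMap_Ser_eq, algebraMap_laurentSeries_eq_single, qExpand_single, mul_zero]

@[simp] theorem iota_apply (s : Ser) : iota X M₁ s = qExpand Qbar M₁ s := rfl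

theorem iota_injective : Function.Injective (iota X M₁) := (qExpand_injective M₁)

/-- `K (j (dτ) : d ∣ N)`. -/
def ratField (X : Ctx q) (N : ℕ) : IntermediateField X.K Ser :=
  IntermediateField.adjoin X.K (divisorExpansionsC Qbar N)

/-- The image of `ratField` in the series of the split Cartan cover. -/
def imField (X : Ctx q) (M₁ : ℕ) [NeZero M₁] (N : ℕ) : IntermediateField X.K Ser :=
  (ratField X N).map (iota X M₁)

variable (G : Model X M₁)

/-- The value of the function `j (dτ)`. -/
theorem exists_jfun {d : ℕ} [NeZero d] (hd : d ∣ M₁) :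
    ∃ c : G.C, (c : Ser) = iota X M₁ (qExpand Qbar d (jqModC Qbar)) ∧
      G.cs (G.twP G.one) c = (c : Ser) := by
  obtain ⟨hne, c, hc, hc'⟩ := G.jfun d hd
  refine ⟨c, ?_, hc'⟩
  rw [hc, iota_apply, qExpand_qExpand]

theorem zetaU_zero : X.zetaU 0 = 1 := by
  refine Units.ext ?_
  show X.ζ ^ (0 : ZMod q).val = 1
  rw [ZMod.val_zero, pow_zero]

theorem gs_pull_zero {c : G.C} : G.gs G.one (some 0) (.pull c) = (c : Ser) := by
  show Igusa.scale (X.zetaU 0) (G.cs (G.twB G.one) c) = _
  rw [zetaU_zero, Igusa.scale_one, G.twB_one, G.cs_one]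

theorem gs_base (L : Line q) {c : G.C} : G.gs G.one L (.base c) = X.up (c : Ser) := by
  show X.up (G.cs G.one c) = _
  rw [G.cs_one]

theorem gs_pull_none {c : G.C} (h : G.cs (G.twP G.one) c = (c : Ser)) :
    G.gs G.one none (.pull c) = X.up (X.up (c : Ser)) :=
  congrArg (X.sub none) h

theorem up_iota [NeZero q] (s : Ser) : X.up (iota X M₁ s) = iota X M₁ (qExpand Qbar q s) := by
  show qExpand Qbar q (qExpand Qbar M₁ s) = qExpand Qbar M₁ (qExpand Qbar q s)
  rw [qExpand_qExpand, qExpand_qExpand]
  exact qExpand_congr (mul_comm _ _) _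

theorem iota_mem_zero {d : ℕ} [NeZero d] (hd : d ∣ M₁) :
    iota X M₁ (qExpand Qbar d (jqModC Qbar)) ∈ G.lineField (some 0) := by
  obtain ⟨c, hc, -⟩ := exists_jfun G hd
  rw [← hc]
  exact IntermediateField.subset_adjoin _ _ ⟨.pull c, gs_pull_zero G⟩

theorem iota_mul_mem [NeZero q] (L : Line q) {d : ℕ} [NeZero d] (hd : d ∣ M₁) :
    iota X M₁ (qExpand Qbar q (qExpand Qbar d (jqModC Qbar))) ∈ G.lineField L := by
  obtain ⟨c, hc, -⟩ := exists_jfun G hd
  rw [← up_iota, ← hc]
  exact IntermediateField.subset_adjoin _ _ ⟨.base c, gs_base G L⟩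

theorem iota_sq_mem [NeZero q] {d : ℕ} [NeZero d] (hd : d ∣ M₁) :
    iota X M₁ (qExpand Qbar q (qExpand Qbar q (qExpand Qbar d (jqModC Qbar)))) ∈
      G.lineField none := by
  obtain ⟨c, hc, hc'⟩ := exists_jfun G hd
  rw [← up_iota, ← up_iota, ← hc]
  exact IntermediateField.subset_adjoin _ _ ⟨.pull c, gs_pull_none G hc'⟩

variable {M' : ℕ}

theorem dvd_cases (hq : q.Prime) {d : ℕ} (hd : d ∣ M' * q) :
    d ∣ M' ∨ ∃ e, e ∣ M' ∧ d = q * e := by
  obtain ⟨a, b, ha, hb, rfl⟩ := exists_dvd_and_dvd_of_dvd_mul hd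
  rcases (Nat.dvd_prime hq).mp hb with rfl | rfl
  · exact Or.inl (by rwa [mul_one])
  · exact Or.inr ⟨a, ha, mul_comm _ _⟩

/-- The image of level `q M'` lies in the line field of `0`. -/
theorem imField_le_zero [NeZero q] (hM : M' ∣ M₁) :
    imField X M₁ (M' * q) ≤ G.lineField (some 0) := by
  rw [imField, ratField, IntermediateField.adjoin_map, IntermediateField.adjoin_le_iff]
  rintro _ ⟨_, ⟨d, hd0, hd, rfl⟩, rfl⟩
  rcases dvd_cases X.prime hd with h | ⟨e, he, rfl⟩
  · exact iota_mem_zero G (h.trans hM)
  · have : NeZero e := ⟨fun h => hd0.out (by rw [h, mul_zero])⟩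
    rw [← qExpand_qExpand]
    exact iota_mul_mem G _ (he.trans hM)

/-- The image of level `q M'` moved by `τ ↦ qτ` lies in the line field of `∞`. -/
theorem iota_qExpand_mem_none [NeZero q] (hM : M' ∣ M₁) {s : Ser}
    (hs : s ∈ ratField X (M' * q)) : iota X M₁ (qExpand Qbar q s) ∈ G.lineField none := by
  induction hs using IntermediateField.adjoin_induction with
  | mem x hx =>
    obtain ⟨d, hd0, hd, rfl⟩ := hx
    rcases dvd_cases X.prime hd with h | ⟨e, he, rfl⟩
    · exact iota_mul_mem G _ (h.trans hM)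
    · have : NeZero e := ⟨fun h => hd0.out (by rw [h, mul_zero])⟩
      have := iota_sq_mem G (he.trans hM)
      rwa [qExpand_qExpand e q] at this
  | algebraMap c =>
    rw [algebraMap_Ser_eq, algebraMap_laurentSeries_eq_single, qExpand_single, mul_zero,
      ← algebraMap_laurentSeries_eq_single, ← algebraMap_Ser_eq, AlgHom.commutes]
    exact IntermediateField.algebraMap_mem _ _
  | add x y _ _ hx hy => rw [map_add, map_add]; exact add_mem hx hy
  | inv x _ hx => rw [map_inv₀, map_inv₀]; exact inv_mem hx
  | mul x y _ _ hx hy => rw [map_mul, map_mul]; exact mul_mem hx hy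

/-- The image of level `q² M'` lies in `splitField`. -/
theorem imField_le_split [NeZero q] (hM : M' ∣ M₁) :
    imField X M₁ (M' * q * q) ≤ G.splitField := by
  rw [imField, ratField, IntermediateField.adjoin_map, IntermediateField.adjoin_le_iff]
  rintro _ ⟨_, ⟨d, hd0, hd, rfl⟩, rfl⟩
  rcases dvd_cases X.prime hd with h | ⟨e, he, rfl⟩
  · exact G.lineField_zero_le (imField_le_zero G hM
      ⟨_, IntermediateField.subset_adjoin _ _ ⟨d, hd0, h, rfl⟩, rfl⟩)
  · have : NeZero e := ⟨fun h => hd0.out (by rw [h, mul_zero])⟩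
    rw [← qExpand_qExpand]
    exact G.lineField_none_le (iota_qExpand_mem_none G hM
      (IntermediateField.subset_adjoin _ _ ⟨e, inferInstance, he, rfl⟩))

/-- Elements of the image come from the function field of `X₀(N)`. -/
theorem exists_bar_of_mem_imField {N : ℕ} [NeZero N] {s : Ser} (hs : s ∈ imField X M₁ N) :
    ∃ y : modularFunctionFieldBar N, iota X M₁ (y : Ser) = s := by
  obtain ⟨y, hy, rfl⟩ := hs
  exact ⟨⟨y, mem_bar_of_mem_adjoin_K hy⟩, rfl⟩

theorem iota_mem_imField {N : ℕ} [NeZero N] {x : Ser} (hx : x ∈ modularFunctionFieldBar N)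
    (hxK : x ∈ coeffsIn X.K) : iota X M₁ x ∈ imField X M₁ N :=
  ⟨x, mem_adjoin_K_of_mem_bar hx hxK, rfl⟩

/-- `j (τ/q)` in `splitField`. -/
def jSplit [NeZero q] : G.splitField :=
  ⟨iota X M₁ (qExpand Qbar 1 (jqModC Qbar)),
    G.lineField_zero_le (iota_mem_zero G (one_dvd _))⟩

theorem transcendental_jSplit [NeZero q] : Transcendental X.K (jSplit G) := by
  rintro ⟨p, hp0, hp⟩
  have h := congrArg G.splitField.val hp
  rw [map_zero, ← Polynomial.aeval_algHom_apply] at h
  change Polynomial.aeval (iota X M₁ (qExpand Qbar 1 (jqModC Qbar))) p = 0 at h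
  rw [qExpand_one_apply, Polynomial.aeval_algHom_apply] at h
  have h1 : Polynomial.aeval (jqModC Qbar) p = 0 := iota_injective (h.trans (map_zero _).symm)
  have h2 : Polynomial.aeval (jqModC Qbar) (p.map (algebraMap X.K Qbar)) = 0 := by
    rw [← h1, Polynomial.aeval_def, Polynomial.aeval_def, Polynomial.eval₂_map]
    congr 1
  exact hp0 ((Polynomial.map_eq_zero _).mp (CongruenceRel.aeval_jqModC_eq_zero h2))

/-- An extension finite over the field generated by a monoid spanning a finite module is finite. -/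
theorem finite_of_span {K F W : Type*} [Field K] [Field F] [Algebra K F]
    (Kh : IntermediateField K F) [AddCommGroup W] [Module Kh W] (val' : F →ₗ[Kh] W)
    (hinj : Function.Injective val') (V : Submodule Kh W) [FiniteDimensional Kh V]
    (C : Submonoid F) (hC : ∀ x ∈ C, val' x ∈ V)
    (hfin : Module.Finite (IntermediateField.adjoin K (C : Set F)) F) :
    FiniteDimensional Kh F := by
  let A' : Subalgebra Kh F := Algebra.adjoin Kh (C : Set F)
  have hA : Subalgebra.toSubmodule A' ≤ V.comap val' := by
    rw [Algebra.adjoin_eq_span, Submonoid.closure_eq, Submodule.span_le]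
    exact hC
  have : FiniteDimensional Kh A' :=
    FiniteDimensional.of_injective
      ((val'.comp A'.val.toLinearMap).codRestrict V fun z => hA z.2)
      fun a b h => Subtype.ext (hinj (congrArg Subtype.val h))
  have halg : ∀ x ∈ (C : Set F), IsAlgebraic Kh x := fun x hx => by
    have := Algebra.IsIntegral.isIntegral (R := Kh) (⟨x, Algebra.subset_adjoin hx⟩ : A')
    exact (this.map A'.val).isAlgebraic
  let B' : IntermediateField Kh F := IntermediateField.adjoin Kh (C : Set F)
  have hB' : B'.toSubalgebra = A' := IntermediateField.adjoin_toSubalgebra_of_isAlgebraic halg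
  have : FiniteDimensional Kh B' :=
    Module.Finite.equiv (Subalgebra.equivOfEq _ _ hB'.symm).toLinearEquiv
  have hle : ∀ z ∈ IntermediateField.adjoin K (C : Set F), z ∈ B' := by
    intro z hz
    induction hz using IntermediateField.adjoin_induction with
    | mem x hx => exact IntermediateField.subset_adjoin _ _ hx
    | algebraMap c =>
      rw [IsScalarTower.algebraMap_apply K Kh F]
      exact IntermediateField.algebraMap_mem _ _
    | add x y _ _ hx hy => exact add_mem hx hy
    | inv x _ hx => exact inv_mem hx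
    | mul x y _ _ hx hy => exact mul_mem hx hy
  have : Module.Finite B' F := by
    obtain ⟨s, hs⟩ := hfin.fg_top
    refine ⟨⟨s, Submodule.eq_top_iff'.mpr fun z => ?_⟩⟩
    have hz : z ∈ Submodule.span (IntermediateField.adjoin K (C : Set F)) (s : Set F) :=
      hs ▸ Submodule.mem_top
    induction hz using Submodule.span_induction with
    | mem x hx => exact Submodule.subset_span hx
    | zero => exact zero_mem _
    | add x y _ _ hx hy => exact add_mem hx hy
    | smul r x _ hx => exact Submodule.smul_mem _ (⟨(r : F), hle r r.2⟩ : B') hx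
  exact Module.Finite.trans B' F

/-- `h` in `splitField`. -/
abbrev hSplit [NeZero q] : G.splitField := G.baseHom G.h

theorem finiteDimensional_adjoin_hSplit [NeZero q] :
    FiniteDimensional X.K⟮hSplit G⟯ G.splitField := by
  classical
  set H := hSplit G
  let Kh := X.K⟮H⟯
  obtain ⟨S, hS⟩ := G.finite
  have hO : ∀ r ∈ Algebra.adjoin X.O ({(G.h : Ser), (G.Dinv : Ser)} : Set Ser),
      ∃ k : Kh, ((k : G.splitField) : Ser) = X.up r := by
    intro r hr
    induction hr using Algebra.adjoin_induction with
    | mem x hx =>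
      rcases hx with rfl | rfl
      · exact ⟨⟨H, IntermediateField.mem_adjoin_simple_self _ _⟩, G.coe_baseHom G.h⟩
      · refine ⟨⟨G.baseHom G.Dinv, ?_⟩, G.coe_baseHom G.Dinv⟩
        have h1 := congrArg G.baseHom G.Dinv_mul
        rw [map_mul, map_prod, map_one] at h1
        rw [eq_inv_of_mul_eq_one_left h1]
        refine inv_mem (prod_mem fun a _ => ?_)
        rw [map_sub, AlgHom.commutes]
        exact sub_mem (IntermediateField.mem_adjoin_simple_self _ _)
          (IntermediateField.algebraMap_mem _ (a : X.K))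
    | algebraMap c =>
      refine ⟨algebraMap X.K Kh (c : X.K), ?_⟩
      rw [X.up_algebraMap, X.algebraMap_eq]
      rfl
    | add x y _ _ hx hy =>
      obtain ⟨a, ha⟩ := hx
      obtain ⟨b, hb⟩ := hy
      exact ⟨a + b, by rw [map_add, ← ha, ← hb]; rfl⟩
    | mul x y _ _ hx hy =>
      obtain ⟨a, ha⟩ := hx
      obtain ⟨b, hb⟩ := hy
      exact ⟨a * b, by rw [map_mul, ← ha, ← hb]; rfl⟩
  let V : Submodule Kh Ser := Submodule.span Kh ((S.image X.up : Finset Ser) : Set Ser)
  have : FiniteDimensional Kh V := FiniteDimensional.span_finset Kh _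
  have hC : ∀ c : G.C, ((G.baseHom c : G.splitField) : Ser) ∈ V := by
    intro c
    rw [G.coe_baseHom]
    suffices h : ∀ x ∈ Submodule.span (Algebra.adjoin X.O ({(G.h : Ser), (G.Dinv : Ser)} : Set Ser))
        (S : Set Ser), X.up x ∈ V from h _ (hS c c.2)
    intro x hx
    induction hx using Submodule.span_induction with
    | mem x hx =>
      exact Submodule.subset_span (Finset.mem_coe.mpr (Finset.mem_image_of_mem _ hx))
    | zero => rw [map_zero]; exact zero_mem _
    | add x y _ _ hx hy => rw [map_add]; exact add_mem hx hy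
    | smul r x _ hx =>
      obtain ⟨k, hk⟩ := hO r r.2
      rw [show r • x = (r : Ser) * x from rfl, map_mul, ← hk]
      exact V.smul_mem k hx
  let val' : G.splitField →ₗ[Kh] Ser :=
    { toFun := fun z => (z : Ser)
      map_add' := fun _ _ => rfl
      map_smul' := fun _ _ => rfl }
  refine finite_of_span X.K⟮hSplit G⟯ val' Subtype.val_injective V
    (MonoidHom.mrange (G.baseHom : G.C →* G.splitField)) ?_ ?_
  · rintro _ ⟨c, rfl⟩
    exact hC c
  · exact G.finite_B₀

/-- `splitField` is finite over the image of level `q² M'`. -/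
theorem finite_over_imField [NeZero q] (hM : M' ∣ M₁) :
    FiniteDimensional (imField X M₁ (M' * q * q))
      (IntermediateField.extendScalars (imField_le_split G hM)) := by
  classical
  have := finiteDimensional_adjoin_hSplit G
  have hJ := transcendental_jSplit G
  have hH : Transcendental X.K (hSplit G) := fun halg => by
    have : Algebra.IsAlgebraic X.K X.K⟮hSplit G⟯ :=
      IntermediateField.isAlgebraic_adjoin_simple halg.isIntegral
    have : Algebra.IsAlgebraic X.K⟮hSplit G⟯ G.splitField := Algebra.IsAlgebraic.of_finite _ _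
    exact hJ ((Algebra.IsAlgebraic.trans X.K X.K⟮hSplit G⟯ G.splitField).isAlgebraic _)
  have : FFBasic.IsFunctionField X.K G.splitField := ⟨⟨hSplit G, hH, inferInstance⟩⟩
  have := FFBasic.IsFunctionField.finiteDimensional_adjoin hJ
  set L := imField X M₁ (M' * q * q)
  have hJL : (jSplit G : Ser) ∈ L :=
    ⟨_, IntermediateField.subset_adjoin _ _ ⟨1, inferInstance, one_dvd _, rfl⟩, rfl⟩
  let E := IntermediateField.extendScalars (imField_le_split G hM)
  obtain ⟨s, hs⟩ := (Module.Finite.fg_top :
    (⊤ : Submodule X.K⟮jSplit G⟯ G.splitField).FG)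
  have hk : ∀ k : X.K⟮jSplit G⟯, ((k : G.splitField) : Ser) ∈ L := by
    rintro ⟨k, hk⟩
    show (k : Ser) ∈ L
    induction hk using IntermediateField.adjoin_induction with
    | mem x hx => rw [Set.mem_singleton_iff.mp hx]; exact hJL
    | algebraMap c => exact L.algebraMap_mem c
    | add x y _ _ hx hy => exact add_mem hx hy
    | inv x _ hx => exact inv_mem hx
    | mul x y _ _ hx hy => exact mul_mem hx hy
  refine ⟨⟨s.image fun z : G.splitField => (⟨(z : Ser), z.2⟩ : E),
    Submodule.eq_top_iff'.mpr fun z => ?_⟩⟩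
  have hz : (⟨(z : Ser), z.2⟩ : G.splitField) ∈
      Submodule.span X.K⟮jSplit G⟯ (s : Set G.splitField) := hs ▸ Submodule.mem_top
  suffices h : ∀ y ∈ Submodule.span X.K⟮jSplit G⟯ (s : Set G.splitField),
      (⟨(y : Ser), y.2⟩ : E) ∈ Submodule.span L
        ((s.image fun z : G.splitField => (⟨(z : Ser), z.2⟩ : E) : Finset E) : Set E) from
    h _ hz
  intro y hy
  induction hy using Submodule.span_induction with
  | mem x hx => exact Submodule.subset_span (Finset.mem_coe.mpr (Finset.mem_image_of_mem _ hx))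
  | zero => exact zero_mem _
  | add x y _ _ hx hy => exact add_mem hx hy
  | smul r x _ hx => exact Submodule.smul_mem _ (⟨_, hk r⟩ : L) hx

end FLTAgent.CarayolSquare.Plumbing
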