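import Fermat.Agent.CarayolSquare.Plumbing.Norms
import Fermat.Agent.FFBasic.Approximation
import Fermat.Agent.GaloisAttach.Stabilizer
import Fermat.Agent.FFBasic.Discrete
import Mathlib.RingTheory.Valuation.LocalSubring
import Mathlib.FieldTheory.Fixed

/-!
# Divisibility of the valuations of a rational function with divisor `m • D`

A divisor fixed by inertia is, near any place, the divisor of a function with coefficients in `K`
(`exists_rational_ord`).  So a rational function with divisor `m • D` has valuation an `m`-th power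
at every valuation of `splitField / K` (`exists_valuation_pow`).
-/

set_option autoImplicit false

noncomputable section

open ModularCurve AlgebraicCurve FLTAgent.FFBasic

namespace FLTAgent.CarayolSquare.Plumbing

local notation "Qbar" => AlgebraicClosure ℚ

variable {q : ℕ} {X : Ctx q} {N : ℕ} [NeZero N]

/-- The Galois action on the function field. -/
abbrev gal (N : ℕ) [NeZero N] (σ : Qbar ≃ₐ[ℚ] Qbar) :
    SemilinearAut Qbar (modularFunctionFieldBar N) :=
  arithmeticGalois (modularFunctionFieldFull N) σ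

theorem coe_gal (σ : Qbar ≃ₐ[ℚ] Qbar) (f : modularFunctionFieldBar N) :
    ((gal N σ • f : modularFunctionFieldBar N) : Ser) = coeffMap (σ : Qbar →+* Qbar) (f : Ser) :=
  coe_arithmeticGalois_smul _ σ f

variable (Γ : Subgroup (Qbar ≃ₐ[ℚ] Qbar)) (hI : ∀ σ ∈ Γ, ∀ c ∈ X.K, σ c = c)
  (hK : ∀ c : Qbar, (∀ σ ∈ Γ, σ c = c) → c ∈ X.K)

include hI hK in
/-- A function with coefficients in `K` of the order prescribed by a fixed divisor at a place. -/
theorem exists_rational_ord (D : Divisor Qbar (modularFunctionFieldBar N))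
    (hD : ∀ σ ∈ Γ, gal N σ • D = D) (v : Place Qbar (modularFunctionFieldBar N)) :
    ∃ g : modularFunctionFieldBar N, g ≠ 0 ∧ (g : Ser) ∈ coeffsIn X.K ∧ v.ord g = D v := by
  classical
  have := FLTAgent.GaloisAttach.isFunctionField_bar N
  have : Module.Finite Qbar v.ResidueField := place_finite_residueField v
  have : Algebra.IsIntegral Qbar v.ResidueField := Algebra.IsIntegral.of_finite _ _
  by_cases hv : D v = 0
  · exact ⟨1, one_ne_zero, one_mem (coeffsIn X.K), by rw [v.ord_one, hv]⟩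
  obtain ⟨z, hz⟩ := exists_ord_eq_forall D.support fun w => D w
  have hz0 : z ≠ 0 := (hz v (Finsupp.mem_support_iff.mpr hv)).1
  have hord : ∀ σ ∈ Γ, v.ord (gal N σ • z) = D v := fun σ hσ => by
    have h1 : D ((gal N σ)⁻¹ • v) = D v := by
      conv_rhs => rw [← hD σ hσ, SemilinearAut.divisor_smul_apply]
    have h2 := (hz _ (Finsupp.mem_support_iff.mpr (h1.trans_ne hv))).2
    have h3 := SemilinearAut.ord_smul (gal N σ) ((gal N σ)⁻¹ • v) z
    rw [smul_inv_smul] at h3
    rw [h3, h2, h1]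
  obtain ⟨E, hE, hEz⟩ := exists_finite_constants (K := X.K)
    (divisorExpansionsC_subset_coeffsIn N) (z := (z : Ser))
    (by rw [← modularFunctionFieldFullC, ← modularFunctionFieldBar_eq]; exact z.2)
  have := hE
  let H : Finset (E →ₐ[ℚ] Qbar) := Finset.univ.filter fun h =>
    ∃ σ ∈ Γ, ∀ c : E, σ (c : Qbar) = h c
  have hmem : ∀ h : E →ₐ[ℚ] Qbar, h ∈ H ↔ ∃ σ ∈ Γ, ∀ c : E, σ (c : Qbar) = h c := fun h => by
    simp [H]
  choose s hs hsE using fun h : H => (hmem h).mp h.2
  let zz : H → modularFunctionFieldBar N := fun h => gal N (s h) • z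
  have hzz : ∀ h, zz h ≠ 0 := fun h => (smul_ne_zero_iff_ne _).mpr hz0
  obtain ⟨t, ht0, ht⟩ := exists_ord_eq v (D v)
  have hr : ∀ h, v.ord (zz h * t⁻¹) = 0 := fun h => by
    rw [v.ord_mul (hzz h) (inv_ne_zero ht0), v.ord_inv, ht, hord _ (hs h), add_neg_cancel]
  choose c hc using fun h => exists_sub_mem_filt_one v (mem_of_ord_nonneg v (hr h).ge)
  have hc0 : ∀ h, c h ≠ 0 := fun h h0 => by
    have := hc h
    rw [h0, map_zero, sub_zero] at this
    have := le_ord_of_mem_filt this (mul_ne_zero (hzz h) (inv_ne_zero ht0))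
    rw [hr h] at this
    omega
  obtain ⟨a, ha⟩ : ∃ a : E, ∑ h : H, (h : E →ₐ[ℚ] Qbar) a * c h ≠ 0 := by
    by_contra hcon
    push Not at hcon
    have hli := (linearIndependent_toLinearMap ℚ E Qbar).comp
      (Subtype.val : H → (E →ₐ[ℚ] Qbar)) Subtype.val_injective
    have h1 : (E →ₐ[ℚ] Qbar) := E.val
    have hne : E.val ∈ H := (hmem _).mpr ⟨1, Γ.one_mem, fun _ => rfl⟩
    refine hc0 ⟨_, hne⟩ (Fintype.linearIndependent_iff.mp hli c ?_ ⟨_, hne⟩)
    ext x
    simpa [mul_comm] using hcon x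
  let g := ∑ h : H, algebraMap Qbar (modularFunctionFieldBar N) ((h : E →ₐ[ℚ] Qbar) a) * zz h
  have hg1 : g * t⁻¹ - algebraMap Qbar _ (∑ h : H, (h : E →ₐ[ℚ] Qbar) a * c h) ∈ filt v 1 := by
    have : g * t⁻¹ - algebraMap Qbar _ (∑ h : H, (h : E →ₐ[ℚ] Qbar) a * c h) =
        ∑ h : H, (h : E →ₐ[ℚ] Qbar) a • (zz h * t⁻¹ - algebraMap Qbar _ (c h)) := by
      simp only [g, Finset.sum_mul, map_sum, map_mul, Algebra.smul_def, mul_sub,
        Finset.sum_sub_distrib, mul_assoc]
    rw [this]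
    exact sum_mem fun h _ => Submodule.smul_mem _ _ (hc h)
  set S := ∑ h : H, (h : E →ₐ[ℚ] Qbar) a * c h
  have hS : algebraMap Qbar (modularFunctionFieldBar N) S ≠ 0 := by simpa using ha
  obtain ⟨hgt0, hgt⟩ : g * t⁻¹ ≠ 0 ∧ v.ord (g * t⁻¹) = 0 := by
    have := ord_add_eq_left v hS (g := g * t⁻¹ - algebraMap Qbar _ S)
      (by rw [ord_algebraMap, zero_add]; exact hg1)
    rwa [add_sub_cancel, ord_algebraMap] at this
  have hg0 : g ≠ 0 := left_ne_zero_of_mul hgt0
  have := X.neZero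
  refine ⟨g, hg0, mem_coeffsIn_of_fixed (I := (Γ : Set (Qbar ≃ₐ[ℚ] Qbar))) hK fun τ hτ => ?_, ?_⟩
  · have hfix : gal N τ • g = g := by
      let π : H → H := fun h => ⟨(τ : Qbar →ₐ[ℚ] Qbar).comp h, (hmem _).mpr
        ⟨τ * s h, Γ.mul_mem hτ (hs h), fun x => congrArg τ (hsE h x)⟩⟩
      have hπ : Function.Bijective π :=
        (Finite.injective_iff_bijective).mp fun h h' heq => Subtype.ext (AlgHom.ext fun x =>
          τ.injective (AlgHom.congr_fun (congrArg Subtype.val heq) x))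
      simp only [g, Finset.smul_sum, smul_mul', SemilinearAut.smul_algebraMap]
      refine Fintype.sum_bijective π hπ _ _ fun h => ?_
      congr 1
      refine Subtype.ext ?_
      show ((gal N τ • gal N (s h) • z : modularFunctionFieldBar N) : Ser) = _
      rw [← mul_smul, ← map_mul, coe_gal, coe_gal]
      exact hEz _ _ (hI _ (Γ.mul_mem hτ (hs h))) (hI _ (hs _)) fun x hx =>
        (congrArg τ (hsE h ⟨x, hx⟩)).trans (hsE (π h) ⟨x, hx⟩).symm
    rw [← coe_gal, hfix]
  · rw [v.ord_mul hg0 (inv_ne_zero ht0), v.ord_inv, ht] at hgt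
    omega

/-- Equal valuations from divisibility in both directions. -/
theorem valuation_eq_of_div_mem {F : Type*} [Field F] (W : ValuationSubring F) {a b : F}
    (ha : a ≠ 0) (hb : b ≠ 0) (h₁ : a * b⁻¹ ∈ W) (h₂ : b * a⁻¹ ∈ W) :
    W.valuation a = W.valuation b := by
  have key : ∀ {a b : F}, b ≠ 0 → a * b⁻¹ ∈ W → W.valuation a ≤ W.valuation b := by
    intro a b hb h
    calc W.valuation a = W.valuation (a * b⁻¹) * W.valuation b := by
          rw [← map_mul, inv_mul_cancel_right₀ hb]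
      _ ≤ 1 * W.valuation b :=
          mul_le_mul_left ((W.valuation_le_one_iff _).mpr h) _
      _ = _ := one_mul _
  exact le_antisymm (key hb h₁) (key ha h₂)

include hI hK in
/-- A rational function with divisor `m • D` has an `m`-th power as valuation at any `W ⊇ K`. -/
theorem exists_valuation_pow {M₁ : ℕ} [NeZero M₁] (G : Model X M₁)
    (hle : imField X M₁ N ≤ G.splitField) (m : ℕ)
    (D : Divisor Qbar (modularFunctionFieldBar N)) (hD : ∀ σ ∈ Γ, gal N σ • D = D)
    {f : modularFunctionFieldBar N} (hf0 : f ≠ 0) (hf : (f : Ser) ∈ coeffsIn X.K)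
    (hdiv : ∀ v, (m • D) v = v.ord f) (W : ValuationSubring G.splitField)
    (hW : ∀ c : X.K, algebraMap X.K G.splitField c ∈ W) :
    ∃ g : G.splitField, g ≠ 0 ∧
      W.valuation ⟨iota X M₁ (f : Ser), hle (iota_mem_imField f.2 hf)⟩ = W.valuation (g ^ m) := by
  have := FLTAgent.GaloisAttach.isFunctionField_bar N
  obtain ⟨V, hV, hloc⟩ := IsLocalRing.exists_factor_valuationRing
    (G.splitField.val.toRingHom.comp W.subtype)
  have hWV : ∀ x : G.splitField, (x : Ser) ∈ V ↔ x ∈ W := fun x => by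
    refine ⟨fun hx => ?_, fun hx => hV ⟨x, hx⟩⟩
    by_contra hxW
    have hi : x⁻¹ ∈ W := (W.mem_or_inv_mem x).resolve_left hxW
    have hx0 : x ≠ 0 := fun h0 => hxW (h0 ▸ W.zero_mem)
    have hu : IsUnit ((G.splitField.val.toRingHom.comp W.subtype).codRestrict V.toSubring hV
        ⟨x⁻¹, hi⟩) :=
      isUnit_iff_exists_inv.mpr ⟨⟨x, hx⟩, Subtype.ext (by
        show ((x⁻¹ : G.splitField) : Ser) * (x : Ser) = 1
        rw [← IntermediateField.coe_mul, inv_mul_cancel₀ hx0, IntermediateField.coe_one])⟩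
    obtain ⟨y, hy⟩ := isUnit_iff_exists_inv.mp (hloc.map_nonunit _ hu)
    have : (y : G.splitField) = x := by
      have := congrArg Subtype.val hy
      simpa [inv_mul_eq_iff_eq_mul₀ hx0] using this
    exact hxW (this ▸ y.2)
  have hbar : ∀ c : Qbar, algebraMap Qbar Ser c ∈ V := fun c => by
    let κ : X.K →+* V := (algebraMap X.K Ser).codRestrict V.toSubring fun b =>
      (hWV (algebraMap X.K G.splitField b)).mpr (hW b)
    have hint : IsIntegral X.K c := Algebra.IsIntegral.isIntegral c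
    obtain ⟨p, hp, hp0⟩ := hint
    have heq : (algebraMap V Ser).comp κ = (algebraMap Qbar Ser).comp (algebraMap X.K Qbar) :=
      RingHom.ext fun b => algebraMap_Ser_eq b
    have : IsIntegral V (algebraMap Qbar Ser c) := by
      refine ⟨p.map κ, hp.map κ, ?_⟩
      rw [Polynomial.eval₂_map, heq, ← Polynomial.hom_eval₂, hp0, map_zero]
    obtain ⟨b, hb⟩ := IsIntegrallyClosed.isIntegral_iff.mp this
    exact hb ▸ b.2
  let ψ : modularFunctionFieldBar N →+* Ser :=
    (iota X M₁).toRingHom.comp (modularFunctionFieldBar N).val.toRingHom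
  let V₀ := V.comap ψ
  have hconst : ∀ c : Qbar, algebraMap Qbar (modularFunctionFieldBar N) c ∈ V₀ := fun c => by
    show qExpand Qbar M₁ (algebraMap Qbar Ser c) ∈ V
    rw [algebraMap_laurentSeries_eq_single, qExpand_single, mul_zero,
      ← algebraMap_laurentSeries_eq_single]
    exact hbar c
  obtain ⟨g, hg0, hgK, h₁, h₂⟩ : ∃ g : modularFunctionFieldBar N, g ≠ 0 ∧
      (g : Ser) ∈ coeffsIn X.K ∧ f * (g ^ m)⁻¹ ∈ V₀ ∧ g ^ m * f⁻¹ ∈ V₀ := by
    by_cases htop : V₀ = ⊤
    · exact ⟨1, one_ne_zero, one_mem (coeffsIn X.K), htop ▸ trivial, htop ▸ trivial⟩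
    let v : Place Qbar (modularFunctionFieldBar N) :=
      ⟨V₀, hconst, htop, isPrincipalIdealRing_of_const hconst⟩
    obtain ⟨g, hg0, hgK, hg⟩ := exists_rational_ord Γ hI hK D hD v
    have hm : v.ord f = v.ord (g ^ m) := by
      rw [ord_pow, hg, ← hdiv v, Finsupp.smul_apply, nsmul_eq_mul]
    refine ⟨g, hg0, hgK, mem_of_ord_nonneg v ?_, mem_of_ord_nonneg v ?_⟩
    · rw [v.ord_mul hf0 (inv_ne_zero (pow_ne_zero _ hg0)), v.ord_inv]; omega
    · rw [v.ord_mul (pow_ne_zero _ hg0) (inv_ne_zero hf0), v.ord_inv]; omega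
  have hne : ∀ {s : modularFunctionFieldBar N} (h : iota X M₁ (s : Ser) ∈ G.splitField),
      s ≠ 0 → (⟨_, h⟩ : G.splitField) ≠ 0 := fun h hs h0 =>
    hs (Subtype.ext (iota_injective (X := X) (M₁ := M₁)
      ((congrArg Subtype.val h0).trans (map_zero (iota X M₁)).symm)))
  have hg' := hle (iota_mem_imField g.2 hgK)
  refine ⟨⟨_, hg'⟩, hne hg' hg0, valuation_eq_of_div_mem W (hne _ hf0)
    (pow_ne_zero _ (hne hg' hg0)) ((hWV _).mp ?_) ((hWV _).mp ?_)⟩
  · have : ψ (f * (g ^ m)⁻¹) ∈ V := h₁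
    rw [map_mul, map_inv₀, map_pow] at this
    push_cast
    exact this
  · have : ψ (g ^ m * f⁻¹) ∈ V := h₂
    rw [map_mul, map_inv₀, map_pow] at this
    push_cast
    exact this

end FLTAgent.CarayolSquare.Plumbing
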